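import Fermat.Agent.Two.Family.Select

/-!
# Parameters on the pencil of a curve with good reduction at 2

The sieve with any prescribed primitive class at `2`.
-/

set_option autoImplicit false

namespace Fermat.Agent.Two.General

open Finset Fermat.Agent.Two
open Fermat.Agent.Two.Family (qD qC4 qDCoeff val_qDCoeff goodAt_qDCoeff qD_congr exists_crt
  qD_shift not_dvd_qC4 exists_direction qD_one_zero)

/-- The parameters on the pencil, for odd discriminant. -/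
theorem exists_params_good {c₄ c₆ Δ : ℤ} (hrel : c₄ ^ 3 - c₆ ^ 2 = 1728 * Δ) (hΔ : Δ ≠ 0)
    (hss : ∀ p : ℕ, p.Prime → (p : ℤ) ∣ Δ → ¬ (p : ℤ) ∣ c₄) (h2 : ¬ (2 : ℤ) ∣ Δ) {a b : ℤ}
    (hab : ¬ ((2 : ℤ) ∣ a ∧ (2 : ℤ) ∣ b)) (N : ℕ) {l : ℕ} (hl : l.Prime) (hl2 : l ≠ 2)
    (hl3 : l ≠ 3) (hlΔ : ¬ (l : ℤ) ∣ Δ) {x : ℤ}
    (hx : (l : ℤ) ∣ qD c₄ c₆ x 1 ∧ ¬ (l : ℤ) ^ 2 ∣ qD c₄ c₆ x 1) :
    ∃ S T : ℤ, IsCoprime S T ∧ Δ * qD c₄ c₆ S T < 0 ∧
      ((2 : ℤ) ^ N ∣ S - a ∧ (2 : ℤ) ^ N ∣ T - b) ∧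
      (¬ (3 : ℤ) ∣ Δ → (3 : ℤ) ^ 6 ∣ S - 1 ∧ (3 : ℤ) ^ 6 ∣ T) ∧
      (∀ q : ℕ, q.Prime → (q : ℤ) ∣ Δ →
        ¬ (q : ℤ) ∣ qC4 c₄ c₆ S T ∧ Odd (padicValInt q (Δ * qD c₄ c₆ S T ^ 3))) ∧
      (∀ q : ℕ, q.Prime → q ≠ 2 → q ≠ 3 → ¬ (q : ℤ) ∣ Δ → ¬ (q : ℤ) ^ 2 ∣ qD c₄ c₆ S T) ∧
      (l : ℤ) ∣ qD c₄ c₆ S T := by
  classical
  let P : Finset ℕ := (6 * Δ.natAbs * l).primeFactors
  have hP : ∀ p : ℕ, p ∈ P ↔ p.Prime ∧ (p = 2 ∨ p = 3 ∨ (p : ℤ) ∣ Δ ∨ p = l) := by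
    intro p
    simp only [P, Nat.mem_primeFactors]
    constructor
    · rintro ⟨hp, hd, -⟩
      refine ⟨hp, ?_⟩
      rcases hp.dvd_mul.mp hd with hd | hd
      · rcases hp.dvd_mul.mp hd with hd | hd
        · rcases hp.dvd_mul.mp (show p ∣ 2 * 3 from hd) with hd | hd
          · exact Or.inl ((Nat.prime_dvd_prime_iff_eq hp Nat.prime_two).mp hd)
          · exact Or.inr (Or.inl ((Nat.prime_dvd_prime_iff_eq hp Nat.prime_three).mp hd))
        · exact Or.inr (Or.inr (Or.inl (Int.natCast_dvd.mpr hd)))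
      · exact Or.inr (Or.inr (Or.inr ((Nat.prime_dvd_prime_iff_eq hp hl).mp hd)))
    · rintro ⟨hp, h⟩
      refine ⟨hp, ?_, mul_ne_zero (by positivity) hl.ne_zero⟩
      rcases h with rfl | rfl | h | rfl
      · exact ((by norm_num : 2 ∣ 6).mul_right _).mul_right _
      · exact ((by norm_num : 3 ∣ 6).mul_right _).mul_right _
      · exact ((Int.natCast_dvd.mp h).mul_left _).mul_right _
      · exact dvd_mul_left _ _
  have hPp : ∀ p ∈ P, p.Prime := fun p hp => ((hP p).mp hp).1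
  let e := N + 8
  let fS : ℕ → ℤ := fun p => if p = 2 then a else if p = l then x else
    if (p : ℤ) ∣ Δ ∧ Even (padicValInt p Δ) then 3 * c₆ + p else 1
  let fT : ℕ → ℤ := fun p => if p = 2 then b else if p = l then 1 else
    if (p : ℤ) ∣ Δ ∧ Even (padicValInt p Δ) then c₄ else 0
  obtain ⟨s0, hs0⟩ := exists_crt P hPp e fS
  obtain ⟨t0, ht0⟩ := exists_crt P hPp e fT
  let M : ℕ := ∏ p ∈ P, p ^ e
  have hM : 0 < M := prod_pos fun p hp => pow_pos (hPp p hp).pos _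
  have hdvdM : ∀ p ∈ P, p ^ e ∣ M := fun p hp => dvd_prod_of_mem (fun i => i ^ e) hp
  have hmemM : ∀ q : ℕ, q.Prime → (q ∣ M ↔ q ∈ P) := by
    intro q hq
    refine ⟨fun h => ?_, fun h => (dvd_pow_self q (by omega)).trans (hdvdM q h)⟩
    obtain ⟨p, hp, hqp⟩ := hq.prime.exists_mem_finset_dvd h
    rwa [(Nat.prime_dvd_prime_iff_eq hq (hPp p hp)).mp (hq.dvd_of_dvd_pow hqp)]
  have h2P : 2 ∈ P := (hP 2).mpr ⟨Nat.prime_two, Or.inl rfl⟩
  have h3P : 3 ∈ P := (hP 3).mpr ⟨Nat.prime_three, Or.inr (Or.inl rfl)⟩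
  have hlP : l ∈ P := (hP l).mpr ⟨hl, Or.inr (Or.inr (Or.inr rfl))⟩
  have h6 : 6 ∣ M := (by norm_num : 6 = 2 * 3) ▸ (by norm_num : Nat.Coprime 2 3).mul_dvd_of_dvd_of_dvd
    ((hmemM 2 Nat.prime_two).mpr h2P) ((hmemM 3 Nat.prime_three).mpr h3P)
  have hgood : ∀ q : ℕ, q.Prime → ¬ q ∣ M → Sieve.GoodAt (qDCoeff c₄ c₆) q := by
    intro q hq hqM
    have : Fact q.Prime := ⟨hq⟩
    rw [hmemM q hq, hP] at hqM
    exact goodAt_qDCoeff hrel (fun h => hqM ⟨hq, Or.inl h⟩)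
      (fun h => hqM ⟨hq, Or.inr (Or.inl h)⟩) fun h => hqM ⟨hq, Or.inr (Or.inr (Or.inl h))⟩
  have hcop : ∀ q : ℕ, q.Prime → q ∣ M → ¬ ((q : ℤ) ∣ s0 ∧ (q : ℤ) ∣ t0) := by
    rintro q hq hqM ⟨hs, ht⟩
    have hqP := (hmemM q hq).mp hqM
    have he : e ≠ 0 := by omega
    have hfS : (q : ℤ) ∣ fS q :=
      (dvd_sub_right hs).mp ((dvd_pow_self _ he).trans (hs0 q hqP))
    have hfT : (q : ℤ) ∣ fT q :=
      (dvd_sub_right ht).mp ((dvd_pow_self _ he).trans (ht0 q hqP))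
    simp only [fS, fT] at hfS hfT
    split_ifs at hfS hfT with hq2 hql hev
    · subst hq2; exact hab ⟨by exact_mod_cast hfS, by exact_mod_cast hfT⟩
    · exact hq.not_dvd_one (by exact_mod_cast hfT)
    · exact hss q hq hev.1 hfT
    · exact hq.not_dvd_one (by exact_mod_cast hfS)
  obtain ⟨α, β, u, w, hxy, hdir⟩ := exists_direction hrel hΔ
  obtain ⟨S, T, hST, hSM, hTM, -, -, -, hsign, hsq⟩ := Sieve.exists_squarefreeAway_sign
    (qDCoeff c₄ c₆) hM h6 hgood s0 t0 hcop hxy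
    (fun h => by rw [val_qDCoeff, Int.cast_id, Int.cast_id] at h; simp [h] at hdir) 0 0
  simp only [val_qDCoeff, Int.cast_id] at hsign hsq
  have hclass : ∀ p ∈ P, ∀ k ≤ e, (p : ℤ) ^ k ∣ S - fS p ∧ (p : ℤ) ^ k ∣ T - fT p := by
    intro p hp k hk
    have hpM : (p : ℤ) ^ k ∣ (M : ℤ) := by
      exact_mod_cast (pow_dvd_pow p hk).trans (hdvdM p hp)
    constructor
    · rw [← sub_add_sub_cancel S s0]
      exact dvd_add (hpM.trans hSM) ((pow_dvd_pow _ hk).trans (hs0 p hp))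
    · rw [← sub_add_sub_cancel T t0]
      exact dvd_add (hpM.trans hTM) ((pow_dvd_pow _ hk).trans (ht0 p hp))
  have hneg : Δ * qD c₄ c₆ S T < 0 := by
    rcases mul_pos_iff.mp hsign with ⟨h1, h2⟩ | ⟨h1, h2⟩ <;>
      rcases mul_neg_iff.mp hdir with ⟨h3, h4⟩ | ⟨h3, h4⟩ <;>
      first
        | exact mul_neg_of_pos_of_neg h3 h1
        | exact mul_neg_of_neg_of_pos h3 h1
        | linarith
  have hqD0 : qD c₄ c₆ S T ≠ 0 := fun h => by simp [h] at hneg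
  have hone : ∀ p ∈ P, p ≠ 2 → p ≠ l → ¬ ((p : ℤ) ∣ Δ ∧ Even (padicValInt p Δ)) →
      ∀ k ≤ e, (p : ℤ) ^ k ∣ S - 1 ∧ (p : ℤ) ^ k ∣ T := by
    intro p hp hp2 hpl hev k hk
    obtain ⟨h1, h2⟩ := hclass p hp k hk
    simp only [fS, fT, if_neg hp2, if_neg hpl, if_neg hev, sub_zero] at h1 h2
    exact ⟨h1, h2⟩
  have hlqD : (l : ℤ) ∣ qD c₄ c₆ S T ∧ ¬ (l : ℤ) ^ 2 ∣ qD c₄ c₆ S T := by
    obtain ⟨hlx, hlx2⟩ := hx
    obtain ⟨h1, h2⟩ := hclass l hlP 2 (by omega)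
    simp only [fS, fT, if_neg hl2, if_pos] at h1 h2
    have h := qD_congr c₄ c₆ (n := l ^ 2) (by exact_mod_cast h1) (by exact_mod_cast h2)
    push_cast at h
    exact ⟨(dvd_sub_left hlx).mp ((dvd_pow_self _ two_ne_zero).trans h),
      fun hd => hlx2 ((dvd_sub_right hd).mp h)⟩
  have hunit : ∀ p ∈ P, p ≠ 2 → p ≠ l → ¬ ((p : ℤ) ∣ Δ ∧ Even (padicValInt p Δ)) →
      ¬ (p : ℤ) ∣ qD c₄ c₆ S T := by
    intro p hp hp2 hpl hev hd
    obtain ⟨h1, h2⟩ := hone p hp hp2 hpl hev 1 (by omega)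
    rw [pow_one] at h1 h2
    have h := qD_congr c₄ c₆ (T := T) (T' := 0) h1 (by simpa using h2)
    rw [qD_one_zero, dvd_sub_right hd] at h
    exact (hPp p hp).not_dvd_one (by exact_mod_cast h)
  refine ⟨S, T, hST, hneg, ?_, ?_, ?_, ?_, hlqD.1⟩
  · obtain ⟨h1, h2'⟩ := hclass 2 h2P N (by omega)
    simp only [fS, fT, if_pos, Nat.cast_ofNat] at h1 h2'
    exact ⟨h1, h2'⟩
  · intro h3
    exact_mod_cast hone 3 h3P (by norm_num) hl3.symm
      (fun h => h3 (by exact_mod_cast h.1)) 6 (by omega)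
  · intro q hq hqΔ
    have : Fact q.Prime := ⟨hq⟩
    have hq2 : q ≠ 2 := fun h => h2 (by rw [h] at hqΔ; exact hqΔ)
    have hqP := (hP q).mpr ⟨hq, Or.inr (Or.inr (Or.inl hqΔ))⟩
    have h4 := hss q hq hqΔ
    have hql : q ≠ l := fun h => hlΔ (h ▸ hqΔ)
    have hcast : ∀ {z w : ℤ}, (q : ℤ) ∣ z - w → (z : ZMod q) = (w : ZMod q) := fun h =>
      ((ZMod.intCast_eq_intCast_iff_dvd_sub _ _ q).mpr h).symm
    have hval : padicValInt q (Δ * qD c₄ c₆ S T ^ 3) =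
        padicValInt q Δ + 3 * padicValInt q (qD c₄ c₆ S T) := by
      rw [pow_succ, pow_two, padicValInt.mul hΔ (mul_ne_zero (mul_ne_zero hqD0 hqD0) hqD0),
        padicValInt.mul (mul_ne_zero hqD0 hqD0) hqD0, padicValInt.mul hqD0 hqD0]
      ring
    by_cases hev : Even (padicValInt q Δ)
    · obtain ⟨h1, h2⟩ := hclass q hqP 2 (by omega)
      simp only [fS, fT, if_neg hq2, if_neg hql, if_pos (And.intro hqΔ hev)] at h1 h2
      have hsqd : (q : ℤ) ^ 2 ∣ Δ := by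
        rw [padicValInt_dvd_iff]
        refine Or.inr ?_
        have : padicValInt q Δ ≠ 0 := fun h => by
          have := (padicValInt_dvd_iff 1 Δ).mp (by simpa using hqΔ)
          omega
        obtain ⟨k, hk⟩ := hev
        omega
      obtain ⟨hd1, hd2⟩ := qD_shift hrel hq hq2 h4 hsqd h1 h2
      refine ⟨not_dvd_qC4 hrel hq2 h4 hqΔ (Or.inr ⟨?_, hcast ((dvd_pow_self _ two_ne_zero).trans h2)⟩),
        ?_⟩
      · rw [hcast ((dvd_pow_self _ two_ne_zero).trans h1)]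
        push_cast
        rw [ZMod.natCast_self, add_zero]
      · rw [hval]
        have hone' : padicValInt q (qD c₄ c₆ S T) = 1 := by
          have e1 := (padicValInt_dvd_iff 1 (qD c₄ c₆ S T)).mp (by simpa using hd1)
          have e2 : ¬ 2 ≤ padicValInt q (qD c₄ c₆ S T) := fun h =>
            hd2 ((padicValInt_dvd_iff 2 _).mpr (Or.inr h))
          have := e1.resolve_left hqD0
          omega
        rw [hone', Nat.odd_iff]
        rw [Nat.even_iff] at hev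
        omega
    · obtain ⟨h1, h2⟩ := hone q hqP hq2 hql (fun h => hev h.2) 1 (by omega)
      rw [pow_one] at h1 h2
      refine ⟨not_dvd_qC4 hrel hq2 h4 hqΔ (Or.inl ⟨by simpa using hcast h1,
        (ZMod.intCast_zmod_eq_zero_iff_dvd _ _).mpr h2⟩), ?_⟩
      rw [hval, padicValInt.eq_zero_of_not_dvd (hunit q hqP hq2 hql fun h => hev h.2)]
      simpa using Nat.not_even_iff_odd.mp hev
  · intro q hq hq2 hq3 hqΔ hd
    by_cases hql : q = l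
    · exact hlqD.2 (hql ▸ hd)
    by_cases hqM : q ∣ M
    · refine hunit q ((hmemM q hq).mp hqM) hq2 hql (fun h => hqΔ h.1) ?_
      exact (dvd_pow_self _ two_ne_zero).trans hd
    · exact hsq q hq hqM hd

end Fermat.Agent.Two.General
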