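import Fermat.Agent.RT.Lift.Levels.CurvePoint
import Fermat.Agent.EC.AtP.Semistable
import Fermat.Agent.EC.Rep.Residual
import Fermat.Prelude.Def_FLTPrelim_Modularity

/-!
# Traces that detect reducible torsion

For a semistable curve with reducible `p`-torsion every element has trace one plus its determinant
on the torsion, and a Frobenius element at a prime `q` of multiplicative reduction has trace
`ε (1 + q)` on the torsion with a sign `ε` not depending on `p`.
-/

set_option autoImplicit false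
set_option linter.style.haveILetI false

noncomputable section

open WeierstrassCurve IsLocalRing Module
open scoped WeierstrassCurve.Affine
open Fermat.Agent.EC.Rep (residualRep tateRep PtQ)

namespace Fermat.Agent.Two.General

open Fermat.Agent.Deform (matRes matOf)

local notation "Q̄" => AlgebraicClosure ℚ
local notation "GQ" => AlgebraicClosure ℚ ≃ₐ[ℚ] AlgebraicClosure ℚ

variable {W : WeierstrassCurve ℤ} {p : ℕ} [Fact p.Prime]

/-- A two-dimensional endomorphism `T` with `T - 1` not invertible has trace `1 + det`. -/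
theorem trace_eq_one_add_det {k V : Type*} [Field k] [AddCommGroup V] [Module k V]
    [Module.Finite k V] (hV : Module.finrank k V = 2) (T : Module.End k V)
    (h : ¬ Function.Bijective ⇑(T - 1)) :
    LinearMap.trace k V T = 1 + LinearMap.det T := by
  have h0 : LinearMap.det (T - 1) = 0 := by
    by_contra h0
    exact h ((Module.End.isUnit_iff _).1
      ((LinearMap.isUnit_iff_isUnit_det _).2 (isUnit_iff_ne_zero.2 h0)))
  let b : Basis (Fin 2) k V := Module.finBasisOfFinrankEq k V hV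
  rw [← LinearMap.det_toMatrix b, map_sub, LinearMap.toMatrix_one, Matrix.det_fin_two] at h0
  rw [LinearMap.trace_eq_matrix_trace k b, ← LinearMap.det_toMatrix b, Matrix.trace_fin_two,
    Matrix.det_fin_two]
  simp [Matrix.sub_apply] at h0
  linear_combination -h0

/-- **Reducible torsion**: the trace is one plus the determinant. -/
theorem trace_of_not_irreducible (hΔ : W.Δ ≠ 0) (hW : W.IsSemistableModel) (hp2 : p ≠ 2)
    (hred : ¬ W.ModRepIsIrreducible p) (σ : GQ) :
    LinearMap.trace (ZMod p) _ ((residualRep W p hΔ).ρ σ) =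
      1 + LinearMap.det ((residualRep W p hΔ).ρ σ) := by
  haveI : Module.Finite (ZMod p) (residualRep W p hΔ).V := inferInstance
  refine trace_eq_one_add_det (residualRep W p hΔ).finrank_eq _ fun hbij => ?_
  rcases EC.AtP.rational_point_or_cofixedLine W hΔ (fun q hq h => hW q hq h.2 h.1) Fact.out hp2
    hred with ⟨P, hP0, hP, hfix⟩ | ⟨N, -, -, hN, hcof⟩
  · refine hP0 ?_
    have hPmem : P ∈ Submodule.torsionBy ℤ ((W.map (Int.castRingHom ℚ))⁄Q̄).Point (p : ℤ) := by
      rw [Submodule.mem_torsionBy_iff]; simpa using hP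
    let x : (residualRep W p hΔ).V := (⟨P, hPmem⟩ : Submodule.torsionBy ℤ _ (p : ℤ))
    have hx : ((residualRep W p hΔ).ρ σ - 1) x = ((residualRep W p hΔ).ρ σ - 1) 0 := by
      refine Eq.trans ?_ (map_zero _).symm
      show (residualRep W p hΔ).ρ σ x - x = 0
      exact sub_eq_zero.2 (Subtype.ext (hfix σ))
    exact congrArg Subtype.val (hbij.1 hx)
  · refine hN (eq_top_iff.2 fun y _ => ?_)
    obtain ⟨x, hx⟩ := hbij.2 y
    rw [← hx]
    exact hcof σ x

/-- The form of `trace_of_not_irreducible` for the trace of the action on points. -/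
theorem galoisTrace_of_not_irreducible (hΔ : W.Δ ≠ 0) (hW : W.IsSemistableModel) (hp2 : p ≠ 2)
    (hred : ¬ W.ModRepIsIrreducible p) {σ : GQ} {a : ℕ}
    (ha : ∀ μ : Q̄, μ ^ p = 1 → σ μ = μ ^ a) :
    Affine.Point.galoisTrace ℚ (W.map (Int.castRingHom ℚ)) p σ = 1 + (a : ZMod p) := by
  refine (trace_of_not_irreducible hΔ hW hp2 hred σ).trans (congrArg (1 + ·) ?_)
  exact (EC.Rep.det_residualRep hΔ (EC.FrobTrace.card_rootsOfUnity_Qbar p) σ).trans
    (Arith.modularCyclotomicCharacter_eq_natCast _ fun ζ hζ => ha ζ hζ)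

/-- At a Frobenius element at any prime `q ≠ p` the trace is `1 + q`. -/
theorem galoisTrace_frobenius_of_not_irreducible (hΔ : W.Δ ≠ 0) (hW : W.IsSemistableModel)
    (hp2 : p ≠ 2) (hred : ¬ W.ModRepIsIrreducible p) {q : ℕ} (hq : q.Prime) (hqp : q ≠ p)
    {A : ValuationSubring Q̄} (hA : A.LiesOverPrime q) {σ : GQ} (hσ : A.IsFrobeniusAt σ q) :
    Affine.Point.galoisTrace ℚ (W.map (Int.castRingHom ℚ)) p σ = 1 + (q : ZMod p) :=
  galoisTrace_of_not_irreducible hΔ hW hp2 hred fun _μ hμ =>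
    GaloisReps.frobenius_apply_root hA hq hσ hμ fun h =>
      hqp ((Nat.prime_dvd_prime_iff_eq hq Fact.out).mp h)

/-- The trace on the Tate module from the quadratic relation with a given sign. -/
theorem trace_tateRep_of_sign (hΔ : W.Δ ≠ 0) {q : ℕ} (hq : q.Prime) (hqp : q ≠ p)
    {A : ValuationSubring Q̄} (hA : A.LiesOverPrime q) {σ : GQ} (hσ : A.IsFrobeniusAt σ q)
    {ε : ℤ} (hε : ε = 1 ∨ ε = -1)
    (hquad : ∀ (n : ℕ), ¬ q ∣ n → ∀ P : ((W.map (Int.castRingHom ℚ))⁄Q̄).Point, n • P = 0 →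
      σ • (σ • P - ε • P) = (ε * q) • (σ • P - ε • P)) :
    (tateRep W p hΔ).trace σ = (ε : ℤ_[p]) * ((q : ℤ_[p]) + 1) := by
  classical
  have hp : p.Prime := Fact.out
  set T := (tateRep W p hΔ).ρ σ with hT
  have hv : ∀ v, T (T v - (ε : ℤ_[p]) • v) -
      ((ε * q : ℤ) : ℤ_[p]) • (T v - (ε : ℤ_[p]) • v) = 0 := fun v => by
    rw [Int.cast_smul_eq_zsmul, Int.cast_smul_eq_zsmul]
    refine EC.Rep.tateRed_eq_zero_of_forall hΔ fun n => ?_
    have hn : ¬ q ∣ p ^ n := fun h =>
      hqp ((Nat.prime_dvd_prime_iff_eq hq hp).mp (hq.dvd_of_dvd_pow h))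
    rw [hT, map_sub, EC.Rep.red_tateRep, map_zsmul, map_sub, EC.Rep.red_tateRep, map_zsmul,
      sub_eq_zero]
    exact hquad _ hn _ (by rw [← natCast_zsmul]; push_cast; exact EC.Rep.pow_smul_tateRed hΔ n v)
  let b : Basis (Fin 2) ℤ_[p] (tateRep W p hΔ).V := Basis.finTwoProd ℤ_[p]
  have hlin : T * T - ((ε : ℤ_[p]) * ((q : ℤ_[p]) + 1)) • T + (q : ℤ_[p]) • 1 = 0 := by
    refine LinearMap.ext fun v => ?_
    have h := hv v
    simp only [map_sub, map_smul] at h
    simp only [LinearMap.add_apply, LinearMap.sub_apply, Module.End.mul_apply,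
      LinearMap.smul_apply, Module.End.one_apply, LinearMap.zero_apply]
    rcases hε with rfl | rfl <;> push_cast at h ⊢ <;> linear_combination (norm := module) h
  have hdet : LinearMap.det T = (q : ℤ_[p]) :=
    RT.Assembly.det_eq_natCast (EC.Rep.detIsCyclotomic_tateRep hΔ) fun n μ hμ =>
      GaloisReps.frobenius_apply_root hA hq hσ hμ fun h =>
        hqp ((Nat.prime_dvd_prime_iff_eq hq hp).mp (hq.dvd_of_dvd_pow h))
  set M := LinearMap.toMatrix b b T
  have hM : M * M - ((ε : ℤ_[p]) * ((q : ℤ_[p]) + 1)) • M + (q : ℤ_[p]) • 1 = 0 := by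
    have h := congrArg (LinearMap.toMatrix b b) hlin
    rwa [map_zero, map_add, map_sub, map_smul, map_smul, LinearMap.toMatrix_mul,
      LinearMap.toMatrix_one] at h
  have hMdet : M.det = (q : ℤ_[p]) := by rw [LinearMap.det_toMatrix]; exact hdet
  rw [GaloisRepAdic.trace, LinearMap.trace_eq_matrix_trace _ b]
  refine (EC.Rep.trace_det_of_quadratic_of_nonscalar M hM fun c hc => ?_).1
  rw [hc, Matrix.det_fin_two] at hMdet
  have h00 := congrFun (congrFun hM 0) 0
  rw [hc] at h00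
  simp at h00 hMdet
  have hε2 : (ε : ℤ_[p]) * ε = 1 := by rcases hε with rfl | rfl <;> simp
  have hq0 : (q : ℤ_[p]) ≠ 0 := Nat.cast_ne_zero.mpr hq.ne_zero
  have hq1 : (q : ℤ_[p]) - 1 ≠ 0 := by
    rw [sub_ne_zero, ← Nat.cast_one, Nat.cast_inj.ne]
    exact hq.ne_one
  have hlinc : 2 * (q : ℤ_[p]) = (ε : ℤ_[p]) * ((q : ℤ_[p]) + 1) * c := by
    linear_combination h00 - hMdet
  have : ((q : ℤ_[p]) - 1) ^ 2 * (q : ℤ_[p]) = 0 := by
    linear_combination (-(2 * (q : ℤ_[p]) + (ε : ℤ_[p]) * ((q : ℤ_[p]) + 1) * c)) * hlinc -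
      ((q : ℤ_[p]) + 1) ^ 2 * c ^ 2 * hε2 - ((q : ℤ_[p]) + 1) ^ 2 * hMdet
  exact (mul_eq_zero.mp this).elim (fun h => hq1 (pow_eq_zero_iff two_ne_zero |>.mp h)) hq0

/-- The trace on the torsion is the reduction of the trace on the Tate module. -/
theorem galoisTrace_eq_toZMod (hΔ : W.Δ ≠ 0) (σ : GQ) :
    Affine.Point.galoisTrace ℚ (W.map (Int.castRingHom ℚ)) p σ =
      PadicInt.toZMod ((tateRep W p hΔ).trace σ) := by
  obtain ⟨b, hb⟩ := RT.Lift.exists_basis_residual_tateRep (p := p) hΔ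
  have h1 : Affine.Point.galoisTrace ℚ (W.map (Int.castRingHom ℚ)) p σ =
      (matRes (residualRep W p hΔ) b σ).trace :=
    LinearMap.trace_eq_matrix_trace (ZMod p) b ((residualRep W p hΔ).ρ σ)
  rw [h1, GaloisRepAdic.trace, LinearMap.trace_eq_matrix_trace _ (RT.Lift.tateStdBasis hΔ),
    Matrix.trace_fin_two, Matrix.trace_fin_two, hb, hb, map_add]
  rfl

/-- **Frobenius at a multiplicative prime**: one sign for all `p`. -/
theorem exists_sign_galoisTrace_frobenius_bad (hΔ : W.Δ ≠ 0) {q : ℕ} (hq : q.Prime)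
    (hdvd : (q : ℤ) ∣ W.Δ) (hc₄ : ¬ (q : ℤ) ∣ W.c₄) {A : ValuationSubring Q̄}
    (hA : A.LiesOverPrime q) {σ : GQ} (hσ : A.IsFrobeniusAt σ q) :
    ∃ ε : ℤ, (ε = 1 ∨ ε = -1) ∧ ∀ (p : ℕ), p.Prime → q ≠ p →
      Affine.Point.galoisTrace ℚ (W.map (Int.castRingHom ℚ)) p σ =
        (ε : ZMod p) * (1 + (q : ZMod p)) := by
  classical
  obtain ⟨ε, hε, hquad⟩ :=
    EC.Multiplicative.exists_sign_frobenius_quadratic hA hq hΔ hdvd hc₄ hσ
  refine ⟨ε, hε, fun p hp hqp => ?_⟩
  haveI := Fact.mk hp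
  rw [galoisTrace_eq_toZMod hΔ, trace_tateRep_of_sign hΔ hq hqp hA hσ hε hquad, map_mul, map_add,
    map_one, map_natCast, map_intCast, add_comm]

end Fermat.Agent.Two.General

end
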