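import Fermat.Agent.Two.General.FiveInputs
import Fermat.Agent.Two.General.FiveTrace
import Fermat.Agent.Two.Family.Member

/-!
# A member of the pencil with irreducible 5-torsion

The parameters are congruent to `(1, 0)` modulo `1728 Δ`, which keeps the local models of `W`, and
to a root of `qD` modulo the auxiliary prime, where the member becomes multiplicative.
-/

set_option autoImplicit false
set_option linter.style.haveILetI false

noncomputable section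

namespace Fermat.Agent.Two.General

open WeierstrassCurve
open Fermat.Agent.Two.Family (qD qC4 qC6 map_qD map_qC4 map_qC6 qD_one_zero qC4_one_zero
  qC6_one_zero HasModelAt modelX modelY modelX_c₄ modelY_c₆ SameTorsion)

theorem sign_one_three : ((1 : ℤ) : ZMod 3) * (1 + 1) ≠ 1 := by decide

theorem sign_neg_one_five : (1 + 1 : ZMod 5) ≠ ((-1 : ℤ) : ZMod 5) * (1 + 1) := by decide

theorem hasModelAt_two_of_modEq (W : WeierstrassCurve ℤ) {c₄ c₆ : ℤ}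
    (h4 : c₄ ≡ W.c₄ [ZMOD 64]) (h6 : c₆ ≡ W.c₆ [ZMOD 64]) : HasModelAt 16 64 c₄ c₆ := by
  have h4' : c₄ ≡ W.c₄ [ZMOD 16] := h4.of_dvd (by norm_num)
  refine ⟨W.a₁, W.a₂, W.a₃, Int.modEq_zero_iff_dvd.mp ?_, Int.modEq_zero_iff_dvd.mp ?_⟩
  · calc modelX W.a₁ W.a₂ W.a₃ c₄ ≡ modelX W.a₁ W.a₂ W.a₃ W.c₄ [ZMOD 16] := by
          unfold modelX; gcongr
      _ ≡ 0 [ZMOD 16] := by
          rw [modelX_c₄]; exact Int.modEq_zero_iff_dvd.mpr (dvd_mul_of_dvd_left (by norm_num) _)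
  · calc modelY W.a₁ W.a₂ W.a₃ c₄ c₆ ≡ modelY W.a₁ W.a₂ W.a₃ W.c₄ W.c₆ [ZMOD 64] := by
          unfold modelY; gcongr
      _ ≡ 0 [ZMOD 64] := by
          rw [modelY_c₆]; exact Int.modEq_zero_iff_dvd.mpr (dvd_mul_of_dvd_left (by norm_num) _)

/-- The invariants at parameters congruent to `(1, 0)`. -/
theorem cast_member {n : ℕ} (c₄ c₆ : ℤ) {S T : ℤ} (hS : (S : ZMod n) = 1) (hT : (T : ZMod n) = 0) :
    ((qD c₄ c₆ S T : ℤ) : ZMod n) = 1 ∧ ((qC4 c₄ c₆ S T : ℤ) : ZMod n) = c₄ ∧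
      ((qC6 c₄ c₆ S T : ℤ) : ZMod n) = c₆ := by
  refine ⟨?_, ?_, ?_⟩
  · rw [← eq_intCast (Int.castRingHom (ZMod n)), map_qD]; simp [hS, hT, qD_one_zero]
  · rw [← eq_intCast (Int.castRingHom (ZMod n)), map_qC4]; simp [hS, hT, qC4_one_zero]
  · rw [← eq_intCast (Int.castRingHom (ZMod n)), map_qC6]; simp [hS, hT, qC6_one_zero]

/-- Coprime parameters congruent to `(1, 0)` modulo `M` and to `(x₀, 1)` modulo `l`. -/
theorem exists_params {M : ℤ} {l : ℕ} (hl : l.Prime) (hM : ¬ (l : ℤ) ∣ M) (x₀ : ℤ) :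
    ∃ S T : ℤ, IsCoprime S T ∧ M ∣ S - 1 ∧ M ∣ T ∧ (l : ℤ) ∣ S - x₀ ∧ (l : ℤ) ∣ T - 1 := by
  obtain ⟨u, v, huv⟩ : IsCoprime M (l : ℤ) :=
    ((Nat.prime_iff_prime_int.mp hl).coprime_iff_not_dvd.mpr hM).symm
  refine ⟨1 + M * u * (x₀ - 1), M * u, ⟨1, -(x₀ - 1), by ring⟩, ⟨u * (x₀ - 1), by ring⟩,
    ⟨u, rfl⟩, ⟨-v * (x₀ - 1), ?_⟩, ⟨-v, ?_⟩⟩
  · linear_combination (x₀ - 1) * huv
  · linear_combination huv

/-- A semistable member of the pencil, multiplicative at a prime where `qD` has a root. -/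
theorem exists_member (W : WeierstrassCurve ℤ) (hΔ : W.Δ ≠ 0) (hW : W.IsSemistableModel) {l : ℕ}
    (hl : l.Prime) (hl2 : l ≠ 2) (hl3 : l ≠ 3) (hlΔ : ¬ (l : ℤ) ∣ W.Δ) {x₀ : ℤ}
    (hx : (l : ℤ) ∣ qD W.c₄ W.c₆ x₀ 1) :
    ∃ W' : WeierstrassCurve ℤ, W'.Δ ≠ 0 ∧ W'.IsSemistableModel ∧ (l : ℤ) ∣ W'.Δ ∧
      SameTorsion W W' := by
  have hrel : W.c₄ ^ 3 - W.c₆ ^ 2 = 1728 * W.Δ := W.c_relation.symm
  have hlp := Nat.prime_iff_prime_int.mp hl
  have hM : ¬ (l : ℤ) ∣ 1728 * W.Δ := fun h => by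
    rcases hlp.dvd_mul.mp h with h | h
    · have h' : l ∣ 2 ^ 6 * 3 ^ 3 := by exact_mod_cast h
      rcases hl.dvd_mul.mp h' with h' | h'
      · exact hl2 ((Nat.prime_dvd_prime_iff_eq hl Nat.prime_two).mp (hl.dvd_of_dvd_pow h'))
      · exact hl3 ((Nat.prime_dvd_prime_iff_eq hl Nat.prime_three).mp (hl.dvd_of_dvd_pow h'))
    · exact hlΔ h
  obtain ⟨S, T, hST, hS, hT, hSl, hTl⟩ := exists_params hl hM x₀
  set c₄ := W.c₄
  set c₆ := W.c₆
  set Δ := W.Δ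
  -- congruences at the divisors of `1728 Δ`
  have hone : ∀ n : ℕ, (n : ℤ) ∣ 1728 * Δ → ((qD c₄ c₆ S T : ℤ) : ZMod n) = 1 ∧
      ((qC4 c₄ c₆ S T : ℤ) : ZMod n) = c₄ ∧ ((qC6 c₄ c₆ S T : ℤ) : ZMod n) = c₆ := fun n hn => by
    refine cast_member c₄ c₆ ?_ ((ZMod.intCast_zmod_eq_zero_iff_dvd _ n).mpr (hn.trans hT))
    have := (ZMod.intCast_zmod_eq_zero_iff_dvd _ n).mpr (hn.trans hS)
    push_cast at this
    exact sub_eq_zero.mp this
  have h64 := hone 64 (dvd_mul_of_dvd_left (by norm_num) _)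
  have h27 := hone 27 (dvd_mul_of_dvd_left (by norm_num) _)
  have hq0 : qD c₄ c₆ S T ≠ 0 := fun h => by
    have := h64.1
    rw [h, Int.cast_zero] at this
    exact absurd this (by decide)
  have hrel' : qC4 c₄ c₆ S T ^ 3 - qC6 c₄ c₆ S T ^ 2 = 1728 * (Δ * qD c₄ c₆ S T ^ 3) := by
    rw [Family.qC4_cube_sub_qC6_sq, hrel, mul_assoc]
  obtain ⟨W', e4, e6, eΔ⟩ := Family.exists_model hrel'
    (hasModelAt_two_of_modEq W ((ZMod.intCast_eq_intCast_iff _ _ 64).mp h64.2.1)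
      ((ZMod.intCast_eq_intCast_iff _ _ 64).mp h64.2.2))
    (Family.hasModelAt_three_of_modEq W ((ZMod.intCast_eq_intCast_iff _ _ 27).mp h27.2.1)
      ((ZMod.intCast_eq_intCast_iff _ _ 27).mp h27.2.2))
  have hΔ' : W'.Δ ≠ 0 := by rw [eΔ]; exact mul_ne_zero hΔ (pow_ne_zero _ hq0)
  refine ⟨W', hΔ', ?_, ?_, ?_⟩
  · intro p hp hpΔ hpc
    have hpp := Nat.prime_iff_prime_int.mp hp
    rw [e4] at hpc
    haveI : Fact p.Prime := ⟨hp⟩
    have k2 := (ZMod.intCast_zmod_eq_zero_iff_dvd _ p).mpr hpc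
    by_cases hpM : (p : ℤ) ∣ 1728 * Δ
    · obtain ⟨h1, h2, -⟩ := hone p hpM
      by_cases hpW : (p : ℤ) ∣ Δ
      · exact hW p hp hpW ((ZMod.intCast_zmod_eq_zero_iff_dvd _ p).mp (h2 ▸ k2))
      · rw [eΔ] at hpΔ
        have hqd := hpp.dvd_of_dvd_pow ((hpp.dvd_mul.mp hpΔ).resolve_left hpW)
        rw [(ZMod.intCast_zmod_eq_zero_iff_dvd _ p).mpr hqd] at h1
        exact zero_ne_one h1
    · rw [eΔ] at hpΔ
      have hqd := hpp.dvd_of_dvd_pow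
        ((hpp.dvd_mul.mp hpΔ).resolve_left fun h => hpM (dvd_mul_of_dvd_right h _))
      have hne : ∀ q : ℕ, (q : ℤ) ∣ 1728 → ((q : ℕ) : ZMod p) ≠ 0 := fun q hq h0 =>
        hpM (dvd_mul_of_dvd_left ((Int.natCast_dvd_natCast.mpr
          ((ZMod.natCast_eq_zero_iff _ _).mp h0)).trans hq) _)
      have z2 : (2 : ZMod p) ≠ 0 := by simpa using hne 2 (by norm_num)
      have z3 : (3 : ZMod p) ≠ 0 := by simpa using hne 3 (by norm_num)
      have hd : ((c₄ : ℤ) : ZMod p) ^ 3 - ((c₆ : ℤ) : ZMod p) ^ 2 ≠ 0 := fun h => hpM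
        ((ZMod.intCast_zmod_eq_zero_iff_dvd _ p).mp (by rw [← hrel]; push_cast; exact h))
      have k1 := (ZMod.intCast_zmod_eq_zero_iff_dvd _ p).mpr hqd
      rw [← eq_intCast (Int.castRingHom (ZMod p)), map_qD] at k1
      rw [← eq_intCast (Int.castRingHom (ZMod p)), map_qC4] at k2
      obtain ⟨hS0, hT0⟩ := Family.eq_zero_of_qD_qC4 z2 z3 (by simpa using hd) k1 k2
      simp only [eq_intCast, ZMod.intCast_zmod_eq_zero_iff_dvd] at hS0 hT0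
      exact hpp.not_isUnit (hST.isUnit_of_dvd' hS0 hT0)
  · rw [eΔ]
    exact dvd_mul_of_dvd_right (dvd_pow
      ((dvd_sub_left hx).mp (Family.qD_congr c₄ c₆ hSl hTl)) three_ne_zero) _
  · have c := Family.baseChange_c W
    have c' := Family.baseChange_c W'
    refine Family.exists_torsion_equiv (c₄ := (c₄ : ℚ)) (c₆ := (c₆ : ℚ)) (S := (S : ℚ))
      (T := (T : ℚ)) (W.map (Int.castRingHom ℚ)) (W'.map (Int.castRingHom ℚ)) c.1 c.2.1
      (c.2.2.trans_ne (Int.cast_ne_zero.mpr hΔ)) (c'.1.trans ?_) (c'.2.1.trans ?_) ?_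
    · rw [e4]; exact map_qC4 (Int.castRingHom ℚ) _ _ _ _
    · rw [e6]; exact map_qC6 (Int.castRingHom ℚ) _ _ _ _
    · exact (map_qD (Int.castRingHom ℚ) c₄ c₆ S T).symm.trans_ne (Int.cast_ne_zero.mpr hq0)

/-- **The five member**, from the auxiliary prime. -/
theorem fiveMemberInput_of (h : FivePrimeInput) : FiveMemberInput := by
  intro W hΔ hW h3 _
  obtain ⟨l, hl, hlR, hl15, ⟨x₀, hx⟩, A, hA, σ, hσ, htr⟩ :=
    h W hΔ hW h3 ({2, 3, 5} ∪ W.Δ.natAbs.primeFactors)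
  simp only [Finset.mem_union, Finset.mem_insert, Finset.mem_singleton, not_or] at hlR
  obtain ⟨⟨hl2, hl3, hl5⟩, hlΔ'⟩ := hlR
  have hlΔ : ¬ (l : ℤ) ∣ W.Δ := fun hd => hlΔ'
    (Nat.mem_primeFactors.mpr ⟨hl, Int.natCast_dvd.mp hd, Int.natAbs_ne_zero.mpr hΔ⟩)
  obtain ⟨W', hΔ', hW', hlW', htors⟩ := exists_member W hΔ hW hl hl2 hl3 hlΔ hx
  refine ⟨W', hΔ', hW', ?_, fun ℓ hℓ => htors.three_dvd_apOfModel_sub hℓ⟩
  by_contra hred
  haveI : Fact (Nat.Prime 3) := ⟨Nat.prime_three⟩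
  haveI : Fact (Nat.Prime 5) := ⟨by norm_num⟩
  obtain ⟨ε, hε, htr'⟩ :=
    exists_sign_galoisTrace_frobenius_bad hΔ' hl hlW' (hW' l hl hlW') hA hσ
  have e5 := galoisTrace_frobenius_of_not_irreducible hΔ' hW' (by norm_num) hred hl hl5 hA hσ
  have e5' := htr' 5 Fact.out hl5
  have e3 := (htr' 3 Nat.prime_three hl3).symm.trans ((htors.galoisTrace_eq σ).symm.trans htr)
  rw [e5] at e5'
  have c3 : (l : ZMod 3) = 1 := by
    rw [← Nat.cast_one, ZMod.natCast_eq_natCast_iff']; omega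
  have c5 : (l : ZMod 5) = 1 := by
    rw [← Nat.cast_one, ZMod.natCast_eq_natCast_iff']; omega
  rw [c3] at e3
  rw [c5] at e5'
  rcases hε with rfl | rfl
  · exact sign_one_three e3
  · exact sign_neg_one_five e5'

end Fermat.Agent.Two.General

end
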