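import Fermat.Agent.Two.General.Inputs
import Fermat.Agent.Two.General.FamilyParams
import Fermat.Agent.Two.General.FiveMember
import Fermat.Agent.Two.Data.Family

/-!
# The family for a curve with good reduction at 2

With ordinary reduction at `2` the parameters are near `(-c₆ : c₄)`, with supersingular reduction
near `(1 : 0)`; in both cases the member is supersingular at `2`.
-/

set_option autoImplicit false

noncomputable section

namespace Fermat.Agent.Two.General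

open WeierstrassCurve
open Fermat.Agent.Two.Family (qD qC4 qC6 map_qD map_qC4 map_qC6 qD_smul qC4_smul qC6_smul
  qD_one_zero qC4_one_zero qC6_one_zero HasModelAt SameTorsion scaleCurve c₄_scaleCurve c₆_scaleCurve)

/-- Even `c₄` forces `16 ∣ c₄`. -/
theorem sixteen_dvd_c₄ {W : WeierstrassCurve ℤ} (h : (2 : ℤ) ∣ W.c₄) : (16 : ℤ) ∣ W.c₄ := by
  have h1 : (2 : ℤ) ∣ W.a₁ := by
    by_contra hodd
    obtain ⟨k, hk⟩ : ∃ k, W.a₁ = 2 * k + 1 := ⟨W.a₁ / 2, by omega⟩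
    set q := k ^ 2 + k + W.a₂ with hq
    have hb : W.b₂ = 4 * q + 1 := by simp only [WeierstrassCurve.b₂, hk, hq]; ring
    have he : W.c₄ = 2 * (8 * q ^ 2 + 4 * q - 12 * W.b₄) + 1 := by
      simp only [WeierstrassCurve.c₄, hb]; ring
    omega
  obtain ⟨k, hk⟩ := h1
  refine ⟨(k ^ 2 + W.a₂) ^ 2 - 3 * (W.a₄ + k * W.a₃), ?_⟩
  simp only [WeierstrassCurve.c₄, WeierstrassCurve.b₂, WeierstrassCurve.b₄, hk]; ring

/-- The invariant `c₄` of a semistable curve does not vanish. -/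
theorem c₄_ne_zero {W : WeierstrassCurve ℤ} (hW : W.IsSemistableModel) : W.c₄ ≠ 0 := by
  intro h0
  have hu : W.Δ.natAbs = 1 := by
    by_contra hne
    obtain ⟨p, hp, hpd⟩ := Nat.exists_prime_and_dvd hne
    exact hW p hp (Int.natCast_dvd.mpr hpd) (h0 ▸ dvd_zero _)
  have hrel := W.c_relation
  rw [h0] at hrel
  rcases Int.natAbs_eq W.Δ with h | h <;> rw [hu, Nat.cast_one] at h <;> rw [h] at hrel
  · nlinarith [sq_nonneg W.c₆]
  · have h1 : W.c₆ ^ 2 = 1728 := by linarith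
    have h41 : W.c₆.natAbs ^ 2 = 1728 := by
      have := congrArg Int.natAbs h1
      rwa [Int.natAbs_pow] at this
    rcases Nat.lt_or_ge W.c₆.natAbs 42 with hlt | hge
    · interval_cases W.c₆.natAbs <;> norm_num at h41
    · nlinarith

/-- The member from parameters with a supersingular scaled model at `2`. -/
theorem exists_twoCurve (W : WeierstrassCurve ℤ) (hΔ : W.Δ ≠ 0) (hW : W.IsSemistableModel)
    (h2 : ¬ (2 : ℤ) ∣ W.Δ) {a b : ℤ} (hab : ¬ ((2 : ℤ) ∣ a ∧ (2 : ℤ) ∣ b)) (N i : ℕ)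
    (hloc : ∀ S T : ℤ, (2 : ℤ) ^ N ∣ S - a → (2 : ℤ) ^ N ∣ T - b → ∃ x y D : ℤ,
      qC4 W.c₄ W.c₆ S T = 2 ^ (4 * i) * x ∧ qC6 W.c₄ W.c₆ S T = 2 ^ (6 * i) * y ∧
        W.Δ * qD W.c₄ W.c₆ S T ^ 3 = 2 ^ (12 * i) * D ∧ ¬ (2 : ℤ) ∣ D ∧
        HasModelAt 16 64 x y ∧ (16 : ℤ) ∣ x) :
    ∃ W' : WeierstrassCurve ℤ, TwoCurve W' ∧ SameTorsion W W' := by
  have hrel : W.c₄ ^ 3 - W.c₆ ^ 2 = 1728 * W.Δ := W.c_relation.symm
  obtain ⟨l, l', hl12, -, hLdata⟩ :=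
    Family.exists_root_primes hrel hΔ (c₄_ne_zero hW) (R := 1) one_ne_zero
  obtain ⟨⟨hl, hl2, hl3, hlΔ, -⟩, x₀, hx₀⟩ := hLdata l (by simp)
  obtain ⟨S, T, hST, hneg, ⟨hSa, hTb⟩, h3good, hbad, hgood, hlqD⟩ :=
    exists_params_good hrel hΔ hW h2 hab N hl hl2 hl3 hlΔ hx₀
  obtain ⟨x, y, D, hx, hy, hDq, hD2, m2, h16⟩ := hloc S T hSa hTb
  set c₄ := W.c₄
  set c₆ := W.c₆
  set Δ := W.Δ
  have hqD : qD c₄ c₆ S T ≠ 0 := fun h => by simp [h] at hneg
  have hD0 : Δ * qD c₄ c₆ S T ^ 3 ≠ 0 := mul_ne_zero hΔ (pow_ne_zero _ hqD)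
  have hrel' : x ^ 3 - y ^ 2 = 1728 * D := by
    refine mul_left_cancel₀ (pow_ne_zero (12 * i) (two_ne_zero (α := ℤ))) ?_
    have e := Family.qC4_cube_sub_qC6_sq c₄ c₆ S T
    rw [hx, hy, hrel, mul_assoc, hDq] at e
    linear_combination e
  have m3 : HasModelAt 3 27 x y := by
    by_cases h3 : (3 : ℤ) ∣ Δ
    · refine Family.hasModelAt_three_of_unit hrel' fun h => (hbad 3 Nat.prime_three h3).1 ?_
      rw [hx]
      exact h.mul_left _
    · obtain ⟨hS, hT⟩ := h3good h3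
      obtain ⟨l, m, hlm⟩ : IsCoprime ((2 : ℤ) ^ i) (27 : ℤ) := by
        rw [show (27 : ℤ) = 3 ^ 3 by norm_num]
        exact (show IsCoprime (2 : ℤ) 3 by norm_num).pow
      have h27 : ∀ {z : ℤ}, (3 : ℤ) ^ 6 ∣ z → (z : ZMod 27) = 0 := fun hz =>
        (ZMod.intCast_zmod_eq_zero_iff_dvd _ 27).mpr ((by norm_num : (27 : ℤ) ∣ 3 ^ 6).trans hz)
      have hS1 : (S : ZMod 27) = 1 := by
        have := h27 hS
        push_cast at this
        exact sub_eq_zero.mp this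
      have hl : (l : ZMod 27) * 2 ^ i = 1 := by
        have := congrArg (Int.cast (R := ZMod 27)) hlm
        push_cast at this
        rwa [show (27 : ZMod 27) = 0 from rfl, mul_zero, add_zero] at this
      obtain ⟨-, k4, k6⟩ := cast_member (n := 27) c₄ c₆ hS1 (h27 hT)
      refine Family.hasModelAt_three_of_modEq (scaleCurve W l)
        ((ZMod.intCast_eq_intCast_iff _ _ 27).mp ?_) ((ZMod.intCast_eq_intCast_iff _ _ 27).mp ?_)
      · rw [c₄_scaleCurve]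
        rw [hx, show 4 * i = i * 4 by ring, pow_mul] at k4
        push_cast at k4 ⊢
        rw [← k4, show ((l : ZMod 27)) ^ 4 * ((2 ^ i) ^ 4 * (x : ZMod 27))
          = ((l : ZMod 27) * 2 ^ i) ^ 4 * x by ring, hl]
        ring
      · rw [c₆_scaleCurve]
        rw [hy, show 6 * i = i * 6 by ring, pow_mul] at k6
        push_cast at k6 ⊢
        rw [← k6, show ((l : ZMod 27)) ^ 6 * ((2 ^ i) ^ 6 * (y : ZMod 27))
          = ((l : ZMod 27) * 2 ^ i) ^ 6 * y by ring, hl]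
        ring
  obtain ⟨W', e4, e6, eΔ⟩ := Family.exists_model hrel' m2 m3
  have hDq' : Δ * qD c₄ c₆ S T ^ 3 = 2 ^ (12 * i) * W'.Δ := by rw [hDq, eΔ]
  have hW'0 : W'.Δ ≠ 0 := fun h => hD0 (by rw [hDq', h, mul_zero])
  have hodd : ¬ (2 : ℤ) ∣ W'.Δ := by rw [eΔ]; exact hD2
  have hval : ∀ (p : ℕ) [Fact p.Prime], p ≠ 2 →
      padicValInt p (Δ * qD c₄ c₆ S T ^ 3) = padicValInt p W'.Δ := fun p _ hp => by
    rw [hDq', Family.padicValInt_two_pow_mul hp _ hW'0]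
  have hne2 : ∀ {p : ℕ}, (p : ℤ) ∣ W'.Δ → p ≠ 2 := fun h e =>
    hodd (by rw [e] at h; exact_mod_cast h)
  have hsplit : ∀ {p : ℕ}, p.Prime → (p : ℤ) ∣ W'.Δ →
      (p : ℤ) ∣ Δ ∨ (p : ℤ) ∣ qD c₄ c₆ S T := fun hp h => by
    rcases (Nat.prime_iff_prime_int.mp hp).dvd_mul.mp
      (show (_ : ℤ) ∣ Δ * qD c₄ c₆ S T ^ 3 from hDq' ▸ h.mul_left _) with h | h
    · exact Or.inl h
    · exact Or.inr ((Nat.prime_iff_prime_int.mp hp).dvd_of_dvd_pow h)
  have hnot3 : ¬ (3 : ℤ) ∣ Δ → ¬ (3 : ℤ) ∣ qD c₄ c₆ S T := fun h3 h => by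
    obtain ⟨hS, hT⟩ := h3good h3
    have h3' : ∀ {z : ℤ}, (3 : ℤ) ^ 6 ∣ z → (z : ZMod 3) = 0 := fun hz =>
      (ZMod.intCast_zmod_eq_zero_iff_dvd _ 3).mpr ((dvd_pow_self (3 : ℤ) (by norm_num)).trans hz)
    have hs : (S : ZMod 3) = 1 := by
      have := h3' hS
      push_cast at this
      exact sub_eq_zero.mp this
    have h0 := (ZMod.intCast_zmod_eq_zero_iff_dvd _ 3).mpr h
    rw [(cast_member (n := 3) c₄ c₆ hs (h3' hT)).1] at h0
    exact one_ne_zero h0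
  have hss : W'.IsSemistableModel := by
    intro p hp hpΔ hpc
    have hp2 := hne2 hpΔ
    have hq4 : (p : ℤ) ∣ qC4 c₄ c₆ S T := by rw [hx, ← e4]; exact hpc.mul_left _
    by_cases hpW : (p : ℤ) ∣ Δ
    · exact (hbad p hp hpW).1 hq4
    · have hqd := (hsplit hp hpΔ).resolve_left hpW
      have hp3 : p ≠ 3 := fun e => by subst e; exact hnot3 hpW hqd
      have : Fact p.Prime := ⟨hp⟩
      have hz : ∀ q : ℕ, q.Prime → p ≠ q → ((q : ℕ) : ZMod p) ≠ 0 := fun q hq hpq h0 =>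
        hpq ((Nat.prime_dvd_prime_iff_eq hp hq).mp ((ZMod.natCast_eq_zero_iff _ _).mp h0))
      have z2 : (2 : ZMod p) ≠ 0 := by simpa using hz 2 Nat.prime_two hp2
      have z3 : (3 : ZMod p) ≠ 0 := by simpa using hz 3 Nat.prime_three hp3
      have hd : ((c₄ : ℤ) : ZMod p) ^ 3 - ((c₆ : ℤ) : ZMod p) ^ 2 ≠ 0 := by
        rw [← Int.cast_pow, ← Int.cast_pow, ← Int.cast_sub, hrel]
        push_cast
        refine mul_ne_zero ?_ (fun h => hpW ((ZMod.intCast_zmod_eq_zero_iff_dvd _ p).mp h))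
        rw [show (1728 : ZMod p) = 2 ^ 6 * 3 ^ 3 by norm_num]
        exact mul_ne_zero (pow_ne_zero _ z2) (pow_ne_zero _ z3)
      have k1 := (ZMod.intCast_zmod_eq_zero_iff_dvd _ p).mpr hqd
      have k2 := (ZMod.intCast_zmod_eq_zero_iff_dvd _ p).mpr hq4
      rw [← eq_intCast (Int.castRingHom (ZMod p)), map_qD] at k1
      rw [← eq_intCast (Int.castRingHom (ZMod p)), map_qC4] at k2
      obtain ⟨hS0, hT0⟩ := Family.eq_zero_of_qD_qC4 z2 z3 (by simpa using hd) k1 k2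
      simp only [eq_intCast, ZMod.intCast_zmod_eq_zero_iff_dvd] at hS0 hT0
      exact (Nat.prime_iff_prime_int.mp hp).not_isUnit (hST.isUnit_of_dvd' hS0 hT0)
  refine ⟨W', ⟨hss, ?_, hodd, Family.two_dvd_a₁ (e4 ▸ h16), ?_, l, hl, hl12, ?_⟩, ?_⟩
  · have h : Δ * qD c₄ c₆ S T ^ 3 < 0 := by
      rw [show Δ * qD c₄ c₆ S T ^ 3 = Δ * qD c₄ c₆ S T * qD c₄ c₆ S T ^ 2 by ring]
      exact mul_neg_of_neg_of_pos hneg (by positivity)
    rw [hDq'] at h
    exact neg_of_mul_neg_right h (by positivity)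
  · intro p hp hpΔ
    have : Fact p.Prime := ⟨hp⟩
    have hp2 := hne2 hpΔ
    rw [← hval p hp2]
    by_cases hpW : (p : ℤ) ∣ Δ
    · exact (hbad p hp hpW).2
    · have hqd := (hsplit hp hpΔ).resolve_left hpW
      have hp3 : p ≠ 3 := fun e => by subst e; exact hnot3 hpW hqd
      have hsq := hgood p hp hp2 hp3 hpW
      have hv : padicValInt p (qD c₄ c₆ S T) = 1 := by
        have a : 1 ≤ padicValInt p (qD c₄ c₆ S T) :=
          ((padicValInt_dvd_iff 1 _).mp (by simpa using hqd)).resolve_left hqD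
        have b : ¬ 2 ≤ padicValInt p (qD c₄ c₆ S T) := fun h =>
          hsq ((padicValInt_dvd_iff 2 _).mpr (Or.inr h))
        omega
      rw [padicValInt.mul hΔ (pow_ne_zero _ hqD), padicValInt.eq_zero_of_not_dvd hpW,
        show qD c₄ c₆ S T ^ 3 = qD c₄ c₆ S T * qD c₄ c₆ S T * qD c₄ c₆ S T by ring,
        padicValInt.mul (mul_ne_zero hqD hqD) hqD, padicValInt.mul hqD hqD, hv]
      decide
  · have hp := Nat.prime_iff_prime_int.mp hl
    have h : (l : ℤ) ∣ 2 ^ (12 * i) * W'.Δ :=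
      hDq' ▸ dvd_mul_of_dvd_right (dvd_pow hlqD three_ne_zero) _
    refine (hp.dvd_mul.mp h).resolve_left fun h => ?_
    have h' := hl.dvd_of_dvd_pow (show l ∣ 2 ^ (12 * i) by exact_mod_cast h)
    exact hl2 ((Nat.prime_dvd_prime_iff_eq hl Nat.prime_two).mp h')
  · have h2q : ((2 : ℚ) ^ i) ≠ 0 := pow_ne_zero _ two_ne_zero
    have c := Family.baseChange_c W
    have c' := Family.baseChange_c W'
    refine Family.exists_torsion_equiv (c₄ := (c₄ : ℚ)) (c₆ := (c₆ : ℚ))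
      (S := (S : ℚ) / 2 ^ i) (T := (T : ℚ) / 2 ^ i)
      (W.map (Int.castRingHom ℚ)) (W'.map (Int.castRingHom ℚ)) c.1 c.2.1
      (c.2.2.trans_ne (Int.cast_ne_zero.mpr hΔ)) (c'.1.trans ?_) (c'.2.1.trans ?_) ?_
    · rw [e4, div_eq_inv_mul, div_eq_inv_mul, qC4_smul,
        show qC4 (c₄ : ℚ) c₆ S T = ((qC4 c₄ c₆ S T : ℤ) : ℚ) from
          (map_qC4 (Int.castRingHom ℚ) _ _ _ _).symm, hx]
      push_cast
      rw [show 4 * i = i * 4 by ring, pow_mul]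
      field_simp
    · rw [e6, div_eq_inv_mul, div_eq_inv_mul, qC6_smul,
        show qC6 (c₄ : ℚ) c₆ S T = ((qC6 c₄ c₆ S T : ℤ) : ℚ) from
          (map_qC6 (Int.castRingHom ℚ) _ _ _ _).symm, hy]
      push_cast
      rw [show 6 * i = i * 6 by ring, pow_mul]
      field_simp
    · rw [div_eq_inv_mul, div_eq_inv_mul, qD_smul,
        show qD (c₄ : ℚ) c₆ S T = ((qD c₄ c₆ S T : ℤ) : ℚ) from
          (map_qD (Int.castRingHom ℚ) _ _ _ _).symm]
      exact mul_ne_zero (pow_ne_zero _ (inv_ne_zero h2q)) (Int.cast_ne_zero.mpr hqD)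

/-- **The family input for all semistable curves with `3 ∣ v₂ Δ`.** -/
theorem goodFamilyInput : GoodFamilyInput := by
  intro W hΔ hW h3v
  by_cases h2 : (2 : ℤ) ∣ W.Δ
  · exact Data.familyInput W hΔ hW h2 h3v
  suffices ∃ W' : WeierstrassCurve ℤ, TwoCurve W' ∧ SameTorsion W W' by
    obtain ⟨W', hW', htors⟩ := this
    exact ⟨W', hW', fun ℓ hℓ => htors.three_dvd_apOfModel_sub hℓ⟩
  have hrel : W.c₄ ^ 3 - W.c₆ ^ 2 = 1728 * W.Δ := W.c_relation.symm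
  by_cases h4 : (2 : ℤ) ∣ W.c₄
  · -- supersingular: the model of `W` at `2`
    refine exists_twoCurve W hΔ hW h2 (a := 1) (b := 0) (by norm_num) 6 0 fun S T hS hT => ?_
    have hd : ∀ {z : ℤ}, (2 : ℤ) ^ 6 ∣ z → (z : ZMod 64) = 0 := fun hz =>
      (ZMod.intCast_zmod_eq_zero_iff_dvd _ 64).mpr hz
    have hS1 : (S : ZMod 64) = 1 := by
      have := hd hS
      push_cast at this
      exact sub_eq_zero.mp this
    obtain ⟨k1, k4, k6⟩ := cast_member (n := 64) W.c₄ W.c₆ hS1 (by simpa using hd hT)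
    have e4 := (ZMod.intCast_eq_intCast_iff _ _ 64).mp k4
    refine ⟨_, _, W.Δ * qD W.c₄ W.c₆ S T ^ 3, by simp, by simp, by simp, ?_,
      hasModelAt_two_of_modEq W e4 ((ZMod.intCast_eq_intCast_iff _ _ 64).mp k6),
      Int.modEq_zero_iff_dvd.mp ((e4.of_dvd (by norm_num)).trans
        (Int.modEq_zero_iff_dvd.mpr (sixteen_dvd_c₄ h4)))⟩
    intro hd2
    rcases Int.prime_two.dvd_mul.mp hd2 with h | h
    · exact h2 h
    · have hq := Int.prime_two.dvd_of_dvd_pow h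
      have h1 : qD W.c₄ W.c₆ S T ≡ 1 [ZMOD 2] := ((ZMod.intCast_eq_intCast_iff _ _ 64).mp
        (k1.trans Int.cast_one.symm)).of_dvd (by norm_num)
      exact absurd ((Int.modEq_zero_iff_dvd.mpr hq).symm.trans h1) (by decide)
  · -- ordinary: the class `(-c₆ : c₄)`
    refine exists_twoCurve W hΔ hW h2 (a := -W.c₆) (b := W.c₄) (fun h => h4 h.2) 17 2
      fun S T hS hT => ?_
    have hT2 : ¬ (2 : ℤ) ∣ T := fun h =>
      h4 ((dvd_sub_right h).mp ((dvd_pow_self _ (by norm_num)).trans hT))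
    have hcl : (2 : ℤ) ^ 17 ∣ W.c₄ * S + W.c₆ * T := by
      rw [show W.c₄ * S + W.c₆ * T = W.c₄ * (S - -W.c₆) + W.c₆ * (T - W.c₄) by ring]
      exact dvd_add (hS.mul_left _) (hT.mul_left _)
    obtain ⟨⟨x, hx⟩, ⟨y, hy⟩, n, hn2, hn⟩ := Family.at_two (j := 0) (Δo := W.Δ) hrel (by simp) h2 h4
      (Family.c₆_emod_four h4) hT2 (N := 17) (by norm_num) hcl
    refine ⟨16 * x, 32 * y + 8, W.Δ * n ^ 3, hx, hy, by rw [hn]; ring, fun h => ?_,
      Family.hasModelAt_two_of_supersingular (dvd_mul_right _ _) ⟨y, by ring⟩, dvd_mul_right _ _⟩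
    rcases Int.prime_two.dvd_mul.mp h with h | h
    · exact h2 h
    · exact hn2 (Int.prime_two.dvd_of_dvd_pow h)

end Fermat.Agent.Two.General

end
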