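import Fermat.Agent.Two.General.FiveInputs
import Fermat.Agent.Two.Family.Member
import Fermat.Agent.Switch.Three
import Fermat.Agent.EC.Rep.Residual

/-!
# The auxiliary prime of the member with irreducible 5-torsion

An irreducible subgroup of `GL₂(F₃)` with odd determinant character has `-1` in its commutator
subgroup, and commutators of Galois elements fix all roots of unity. Chebotarev then gives primes
`l ≡ 1 [MOD 15]` with Frobenius `-1` on the 3-torsion, hence with a root of `qD`.
-/

set_option autoImplicit false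
set_option linter.style.haveILetI false

noncomputable section

namespace Fermat.Agent.Two.General

open WeierstrassCurve Polynomial IsLocalRing
open scoped WeierstrassCurve.Affine commutatorElement

local notation "Q̄" => AlgebraicClosure ℚ
local notation "GQ" => AlgebraicClosure ℚ ≃ₐ[ℚ] AlgebraicClosure ℚ

/-- An element of determinant one over `F₃` is unipotent or has `-1` as square or cube. -/
theorem unipotent_or_pow_eq_neg_one :
    ∀ X : Matrix (Fin 2) (Fin 2) (ZMod 3), X.det = 1 →
      (X - 1) * (X - 1) = 0 ∨ X * X = -1 ∨ X * X * X = -1 := by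
  decide

/-- Two nilpotent matrices whose sum with their product is nilpotent multiply to zero. -/
theorem nilpotent_mul_eq_zero {k : Type*} [Field k] {N N' : Matrix (Fin 2) (Fin 2) k}
    (hN : N * N = 0) (hN' : N' * N' = 0) (hS : (N + N' + N * N') * (N + N' + N * N') = 0) :
    N * N' = 0 := by
  have key : ∀ M : Matrix (Fin 2) (Fin 2) k, M * M = 0 →
      M 0 0 + M 1 1 = 0 ∧ M 0 0 * M 1 1 - M 0 1 * M 1 0 = 0 := by
    intro M hM
    have hn : IsNilpotent M := ⟨2, by rw [sq, hM]⟩
    have ht := (Matrix.isNilpotent_trace_of_isNilpotent hn).eq_zero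
    have hd : M.det = 0 := mul_self_eq_zero.mp (by rw [← Matrix.det_mul, hM, Matrix.det_zero])
    rw [Matrix.trace_fin_two] at ht
    exact ⟨ht, by rw [← Matrix.det_fin_two, hd]⟩
  obtain ⟨t, d⟩ := key N hN
  obtain ⟨t', d'⟩ := key N' hN'
  have hs := (key _ hS).1
  simp only [Matrix.add_apply, Matrix.mul_apply, Fin.sum_univ_two] at hs
  have e : N 1 1 = -N 0 0 := by linear_combination t
  have e' : N' 1 1 = -N' 0 0 := by linear_combination t'
  rw [e] at d hs
  rw [e'] at d' hs
  set a := N 0 0
  set a' := N' 0 0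
  set b := N 0 1
  set b' := N' 0 1
  set c := N 1 0
  set c' := N' 1 0
  have h00 : (a * a' + b * c') ^ 2 = 0 := by
    linear_combination (b * c') * hs - a' ^ 2 * d + (b * c) * d'
  have h01 : (a * b' - b * a') ^ 2 = 0 := by
    linear_combination -(b * b') * hs - b' ^ 2 * d - b ^ 2 * d'
  have h10 : (c * a' - a * c') ^ 2 = 0 := by
    linear_combination -(c * c') * hs - c' ^ 2 * d - c ^ 2 * d'
  have h11 : (c * b' + a * a') ^ 2 = 0 := by
    linear_combination (c * b') * hs - a' ^ 2 * d + (b * c) * d'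
  ext i j
  fin_cases i <;> fin_cases j <;> simp [Matrix.mul_apply, Fin.sum_univ_two, e, e']
  · exact pow_eq_zero_iff two_ne_zero |>.mp h00
  · linear_combination (pow_eq_zero_iff two_ne_zero |>.mp h01)
  · linear_combination (pow_eq_zero_iff two_ne_zero |>.mp h10)
  · linear_combination (pow_eq_zero_iff two_ne_zero |>.mp h11)

section Group

set_option linter.unusedSectionVars false

variable {G : Type*} [Group G] {V : Type*} [AddCommGroup V] [Module (ZMod 3) V]
  [Module.Finite (ZMod 3) V]

/-- An element of the commutator subgroup has determinant one in any representation. -/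
theorem det_eq_one_of_mem_commutator (f : G →* Module.End (ZMod 3) V) {h : G}
    (hh : h ∈ commutator G) : LinearMap.det (f h) = 1 := by
  have h1 := Abelianization.commutator_subset_ker ((LinearMap.det.comp f).toHomUnits) hh
  exact congrArg Units.val (MonoidHom.mem_ker.mp h1)

/-- **An irreducible odd subgroup of `GL₂(F₃)` has `-1` as a commutator.** -/
theorem exists_commutator_eq_neg_one (hV : Module.finrank (ZMod 3) V = 2)
    (f : G →* Module.End (ZMod 3) V)
    (hirr : ∀ U : Submodule (ZMod 3) V, (∀ g, ∀ x ∈ U, f g x ∈ U) → U = ⊥ ∨ U = ⊤)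
    {c : G} (hc : f c * f c = 1) (hdet : LinearMap.det (f c) = -1) :
    ∃ h ∈ commutator G, f h = -1 := by
  let b : Module.Basis (Fin 2) (ZMod 3) V := Module.finBasisOfFinrankEq _ V hV
  let e := LinearMap.toMatrixAlgEquiv b
  by_contra hne
  have huni : ∀ h ∈ commutator G, (f h - 1) * (f h - 1) = 0 := by
    intro h hh
    have hd : (e (f h)).det = 1 :=
      (LinearMap.det_toMatrix b (f h)).trans (det_eq_one_of_mem_commutator f hh)
    rcases unipotent_or_pow_eq_neg_one (e (f h)) hd with h2 | h2 | h2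
    · exact e.injective (by rw [map_mul, map_sub, map_one, map_zero, h2])
    · exact absurd ⟨h * h, mul_mem hh hh, e.injective (by
        rw [map_mul, map_mul, h2, map_neg, map_one])⟩ hne
    · exact absurd ⟨h * h * h, mul_mem (mul_mem hh hh) hh, e.injective (by
        rw [map_mul, map_mul, map_mul, map_mul, h2, map_neg, map_one])⟩ hne
  by_cases hab : ∀ h ∈ commutator G, f h = 1
  · -- the image is abelian, and the fixed line of `f c` is stable
    have hcomm : ∀ g, f g * f c = f c * f g := fun g => by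
      have h1 : ⁅g, c⁆ ∈ commutator G :=
        Subgroup.commutator_mem_commutator (Subgroup.mem_top g) (Subgroup.mem_top c)
      rw [← map_mul, show g * c = ⁅g, c⁆ * (c * g) by rw [commutatorElement_def]; group, map_mul,
        hab _ h1, one_mul, map_mul]
    rcases hirr (LinearMap.ker (f c - 1)) (fun g x hx => by
      rw [LinearMap.mem_ker, LinearMap.sub_apply, Module.End.one_apply, sub_eq_zero] at hx ⊢
      rw [← Module.End.mul_apply, ← hcomm g, Module.End.mul_apply, hx]) with hU | hU
    · have hm : f c = (-1 : ZMod 3) • 1 := LinearMap.ext fun x => by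
        have hfix : f c x + x ∈ LinearMap.ker (f c - 1) := by
          rw [LinearMap.mem_ker, LinearMap.sub_apply, Module.End.one_apply, map_add,
            ← Module.End.mul_apply, hc, Module.End.one_apply]
          abel
        rw [hU, Submodule.mem_bot] at hfix
        rw [LinearMap.smul_apply, Module.End.one_apply, neg_smul, one_smul]
        exact eq_neg_of_add_eq_zero_left hfix
      rw [hm, LinearMap.det_smul, hV, map_one] at hdet
      exact absurd hdet (by decide)
    · have h1 : f c = 1 := sub_eq_zero.mp (LinearMap.ker_eq_top.mp hU)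
      rw [h1, map_one] at hdet
      exact absurd hdet (by decide)
  · push Not at hab
    obtain ⟨h, hh, hh1⟩ := hab
    set N := f h - 1 with hN
    have hNN : N * N = 0 := huni h hh
    have hN0 : N ≠ 0 := sub_ne_zero.mpr hh1
    have hconj : ∀ g, N * f g * N = 0 := fun g => by
      have hm : g * h * g⁻¹ ∈ commutator G := (inferInstance : (commutator G).Normal).conj_mem h hh g
      set N' := f (g * h * g⁻¹) - 1 with hN'
      have hS : (N + N' + N * N') * (N + N' + N * N') = 0 := by
        have e1 : N + N' + N * N' = f (h * (g * h * g⁻¹)) - 1 := by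
          rw [hN, hN', map_mul f h (g * h * g⁻¹)]; noncomm_ring
        rw [e1]
        exact huni _ (mul_mem hh hm)
      have h0 : N * N' = 0 := e.injective (by
        rw [map_zero, map_mul]
        refine nilpotent_mul_eq_zero ?_ ?_ ?_
        · rw [← map_mul, hNN, map_zero]
        · rw [← map_mul, huni _ hm, map_zero]
        · rw [← map_mul, ← map_add, ← map_add, ← map_mul, hS, map_zero])
      have h1 : N' * f g = f g * N := by
        rw [hN', hN, sub_mul, mul_sub, one_mul, mul_one, ← map_mul, ← map_mul,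
          inv_mul_cancel_right]
      rw [mul_assoc, ← h1, ← mul_assoc, h0, zero_mul]
    rcases hirr (LinearMap.range N) (fun g x hx => by
      obtain ⟨y, rfl⟩ := hx
      have h2 : N (f g (N y)) = 0 := by
        have := LinearMap.congr_fun (hconj g) y
        simpa using this
      have hker : LinearMap.range N = LinearMap.ker N := by
        have hle : LinearMap.range N ≤ LinearMap.ker N := fun z ⟨w, hw⟩ => by
          rw [LinearMap.mem_ker, ← hw]
          simpa using LinearMap.congr_fun hNN w
        refine Submodule.eq_of_le_of_finrank_le hle ?_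
        have h3 := N.finrank_range_add_finrank_ker
        have h4 : 0 < Module.finrank (ZMod 3) (LinearMap.range N) := by
          rw [Nat.pos_iff_ne_zero, Ne, Submodule.finrank_eq_zero, LinearMap.range_eq_bot]
          exact hN0
        omega
      rw [hker]
      exact h2) with hU | hU
    · exact hN0 (LinearMap.range_eq_bot.mp hU)
    · refine hN0 (LinearMap.ext fun x => ?_)
      obtain ⟨y, hy⟩ : x ∈ LinearMap.range N := hU ▸ Submodule.mem_top
      rw [← hy]
      simpa using LinearMap.congr_fun hNN y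

end Group

/-- Commutators of Galois elements fix all roots of unity. -/
theorem apply_rootOfUnity_of_mem_commutator {h : GQ} (hh : h ∈ commutator GQ) {n : ℕ} (hn : 0 < n)
    {z : Q̄} (hz : z ^ n = 1) : h z = z := by
  have : NeZero n := ⟨hn.ne'⟩
  obtain ⟨ζ, hζ⟩ := HasEnoughRootsOfUnity.exists_primitiveRoot Q̄ n
  have hcomm : ∀ (a b : GQ) (w : Q̄), w ^ n = 1 → a (b w) = b (a w) := by
    intro a b w hw
    obtain ⟨i, -, rfl⟩ := hζ.eq_pow_of_pow_eq_one hw
    obtain ⟨k, -, hk⟩ := hζ.eq_pow_of_pow_eq_one (ξ := a ζ)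
      (by rw [← map_pow, hζ.pow_eq_one, map_one])
    obtain ⟨m, -, hm⟩ := hζ.eq_pow_of_pow_eq_one (ξ := b ζ)
      (by rw [← map_pow, hζ.pow_eq_one, map_one])
    simp only [map_pow]
    rw [← hm, ← hk, map_pow, map_pow, ← hm, ← hk]
    ring
  have hle : commutator GQ ≤ MulAction.stabilizer GQ z := by
    rw [commutator_def, Subgroup.commutator_le]
    intro a _ b _
    show ⁅a, b⁆ z = z
    set w := (b * a)⁻¹ z with hw
    have hwn : w ^ n = 1 := by rw [hw, ← map_pow, hz, map_one]
    have hzw : b (a w) = z := (b * a).apply_symm_apply z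
    rw [commutatorElement_def, show a * b * a⁻¹ * b⁻¹ = a * b * (b * a)⁻¹ by group,
      AlgEquiv.mul_apply, AlgEquiv.mul_apply, ← hw, hcomm a b w hwn, hzw]
  exact hle hh

/-- A root in `Q̄` fixed by a Frobenius element gives a root modulo the prime. -/
theorem exists_int_root_of_fixed {P : ℤ[X]} (hP : P.Monic) {r : Q̄}
    (hr : eval₂ (Int.castRingHom Q̄) r P = 0) {ℓ : ℕ} (hℓ : ℓ.Prime) {A : ValuationSubring Q̄}
    (hA : A.LiesOverPrime ℓ) {σ : GQ} (hσ : A.IsFrobeniusAt σ ℓ) (hσr : σ r = r) :
    ∃ x : ℤ, (ℓ : ℤ) ∣ P.eval x := by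
  have hrint : _root_.IsIntegral ℤ r := ⟨P, hP, hr⟩
  have hrA : r ∈ A := Arith.mem_of_isIntegral A hrint
  have := Arith.residueField_charP hA hℓ
  have hres : residue A ⟨r, hrA⟩ ^ ℓ = residue A ⟨r, hrA⟩ := by
    rw [← map_pow]
    refine (Arith.residue_eq_iff.mpr ?_).symm
    have h := (Arith.isFrobeniusAt_iff hA hℓ).mp hσ r hrint
    rw [hσr] at h
    simpa using h
  obtain ⟨n, hn⟩ := Family.exists_natCast_of_pow_eq hℓ hres
  refine ⟨n, (CharP.intCast_eq_zero_iff (ResidueField A) ℓ _).mp ?_⟩
  have hA' : eval₂ (Int.castRingHom A) ⟨r, hrA⟩ P = 0 := by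
    apply Subtype.val_injective
    show A.subtype (eval₂ (Int.castRingHom A) ⟨r, hrA⟩ P) = A.subtype 0
    rw [map_zero, hom_eval₂,
      RingHom.ext_int (A.subtype.comp (Int.castRingHom A)) (Int.castRingHom Q̄)]
    exact hr
  have h0 := congrArg (residue A) hA'
  rw [map_zero, hom_eval₂, hn, RingHom.ext_int ((residue A).comp (Int.castRingHom A))
    (Int.castRingHom (ResidueField A))] at h0
  rw [← h0, ← eq_intCast (Int.castRingHom (ResidueField A)), ← eval₂_at_apply, eq_intCast,
    Int.cast_natCast]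

theorem qD_short {R : Type*} [CommRing R] (V : WeierstrassCurve R) (x : R) :
    Family.qD V.c₄ V.c₆ (12 * x + V.b₂) 1
      = 6912 * (3 * x ^ 4 + V.b₂ * x ^ 3 + 3 * V.b₄ * x ^ 2 + 3 * V.b₆ * x + V.b₈) := by
  simp only [Family.qD, WeierstrassCurve.c₄, WeierstrassCurve.c₆]
  linear_combination -1728 * V.b_relation

/-- An element acting as `-1` on the 3-torsion fixes a root of `qD`. -/
theorem exists_qD_root_fixed (W : WeierstrassCurve ℤ) [Fact (Nat.Prime 3)] (hΔ : W.Δ ≠ 0) {h : GQ}
    (hh : (EC.Rep.residualRep W 3 hΔ).ρ h = -1) :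
    ∃ r : Q̄, eval₂ (Int.castRingHom Q̄) r (Family.qDPoly W.c₄ W.c₆) = 0 ∧ h r = r := by
  set E := W.map (Int.castRingHom ℚ) with hE
  have := Module.nontrivial_of_finrank_eq_succ (EC.Rep.residualRep W 3 hΔ).finrank_eq
  obtain ⟨v, hv⟩ := exists_ne (0 : (EC.Rep.residualRep W 3 hΔ).V)
  let T : Submodule.torsionBy ℤ (E⁄Q̄).Point ((3 : ℕ) : ℤ) := v
  have hT : h • T = -T := by
    have h1 := LinearMap.congr_fun hh v
    exact h1
  have hT' : h • (T : (E⁄Q̄).Point) = -(T : (E⁄Q̄).Point) := congrArg Subtype.val hT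
  have hT0 : (T : (E⁄Q̄).Point) ≠ 0 := fun h0 => hv (Subtype.ext h0)
  have h3 : (3 : ℕ) • (T : (E⁄Q̄).Point) = 0 := by
    have h2 := (Submodule.mem_torsionBy_iff _ _).mp T.2
    simpa only [natCast_zsmul] using h2
  rcases hP : (T : (E⁄Q̄).Point) with _ | ⟨x, y, hns⟩
  · exact absurd hP hT0
  rw [hP] at hT' h3
  obtain ⟨h', e⟩ := Mazur.Fifteen.smul_some E h hns
  rw [e, Affine.Point.neg_some] at hT'
  have hx : h x = x := (Affine.Point.some.inj hT').1
  have hψ := Switch.three_torsion_quartic (E⁄Q̄) hns h3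
  have hmap : E⁄Q̄ = W.map (Int.castRingHom Q̄) := by ext <;> simp [hE]
  rw [hmap] at hψ
  refine ⟨12 * x + (W.b₂ : Q̄), ?_, by rw [map_add, map_mul, hx, map_ofNat, map_intCast]⟩
  have key := qD_short (W.map (Int.castRingHom Q̄)) x
  rw [hψ, mul_zero] at key
  simp only [map_c₄, map_c₆, map_b₂, eq_intCast] at key
  rw [Family.qD] at key
  simp only [Family.qDPoly, eval₂_add, eval₂_mul, eval₂_pow, eval₂_X, eval₂_C]
  simp only [eq_intCast]
  push_cast
  linear_combination key

/-- **The auxiliary prime**: `l ≡ 1 [MOD 15]` with a root of `qD` and trace `-2` on 3-torsion. -/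
theorem fivePrimeInput : FivePrimeInput := by
  intro W hΔ _ hirr R
  classical
  haveI : Fact (Nat.Prime 3) := ⟨Nat.prime_three⟩
  set ρ := EC.Rep.residualRep W 3 hΔ with hρ
  obtain ⟨g, hgcomm, hg⟩ := exists_commutator_eq_neg_one ρ.finrank_eq ρ.ρ
    ((EC.Rep.isIrreducible_residualRep_iff hΔ).mpr hirr) (c := complexConjugation)
    (by rw [← map_mul, complexConjugation_mul_self, map_one])
    (EC.Rep.det_residualRep_involution hΔ (by norm_num) complexConjugation_mul_self
      EC.Rep.complexConjugation_ne_one)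
  obtain ⟨r, hr, hgr⟩ := exists_qD_root_fixed W hΔ hg
  obtain ⟨L₀, hL₀, hker⟩ := ρ.factorsThroughFiniteLevel
  haveI := hL₀
  obtain ⟨z, hz⟩ := HasEnoughRootsOfUnity.exists_primitiveRoot Q̄ 15
  let L : IntermediateField ℚ Q̄ := L₀ ⊔ IntermediateField.adjoin ℚ {r, z}
  haveI : FiniteDimensional ℚ (IntermediateField.adjoin ℚ ({r, z} : Set Q̄)) :=
    IntermediateField.finiteDimensional_adjoin fun x _ =>
      (Algebra.IsAlgebraic.isAlgebraic x).isIntegral
  let L' : IntermediateField ℚ Q̄ := IntermediateField.normalClosure ℚ L Q̄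
  haveI : Normal ℚ L' := normalClosure.normal ℚ L Q̄
  haveI : IsGalois ℚ L' := ⟨⟩
  obtain ⟨l, hl, hlR, A, hA, σ, hσ, heq⟩ :=
    Arith.Chebotarev.exists_frobenius_restrict_eq L' g (R ∪ (15 : ℕ).primeFactors)
  rw [Finset.mem_union, not_or] at hlR
  have hl15 : ¬ l ∣ 15 := fun h =>
    hlR.2 (Nat.mem_primeFactors.mpr ⟨hl, h, by norm_num⟩)
  have hfix : ∀ x ∈ L, σ x = g x := fun x hx => by
    have h1 := AlgEquiv.restrictNormal_commutes σ L' ⟨x, L.le_normalClosure hx⟩
    have h2 := AlgEquiv.restrictNormal_commutes g L' ⟨x, L.le_normalClosure hx⟩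
    rw [show AlgEquiv.restrictNormal σ L' = AlgEquiv.restrictNormalHom L' σ from rfl, heq] at h1
    exact h1.symm.trans h2
  have hrz : ∀ x ∈ ({r, z} : Set Q̄), x ∈ L := fun x hx =>
    (le_sup_right : IntermediateField.adjoin ℚ ({r, z} : Set Q̄) ≤ L)
      (IntermediateField.subset_adjoin _ _ hx)
  have hρσ : ρ.ρ σ = -1 := by
    have h1 : ρ.ρ (g⁻¹ * σ) = 1 := hker _ fun x hx => by
      rw [AlgEquiv.mul_apply, hfix x ((le_sup_left : L₀ ≤ L) hx)]
      exact g.symm_apply_apply x
    rw [← hg, show σ = g * (g⁻¹ * σ) by group, map_mul, h1, mul_one]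
  refine ⟨l, hl, hlR.1, ?_, ?_, A, hA, σ, hσ, ?_⟩
  · have h := Arith.frobenius_root hA hl hσ hz.pow_eq_one hl15
    rw [hfix z (hrz z (by simp)),
      apply_rootOfUnity_of_mem_commutator hgcomm (by norm_num) hz.pow_eq_one] at h
    have hmod : z ^ (l % 15) = z ^ 1 := by
      rw [← pow_eq_pow_mod l hz.pow_eq_one, pow_one]
      exact h.symm
    exact hz.pow_inj (Nat.mod_lt _ (by norm_num)) (by norm_num) hmod
  · obtain ⟨x, hx⟩ := exists_int_root_of_fixed (Family.qDPoly_monic W.c₄ W.c₆) hr hl hA hσ
      ((hfix r (hrz r (by simp))).trans hgr)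
    exact ⟨x, by rwa [Family.eval_qDPoly] at hx⟩
  · show LinearMap.trace (ZMod 3) _ (ρ.ρ σ) = 1
    rw [hρσ, map_neg, LinearMap.trace_one, ρ.finrank_eq]
    rfl

end Fermat.Agent.Two.General

end
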