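import Fermat.Agent.Two.General.FiveMember
import Fermat.Agent.Two.General.FivePrime

/-!
# The five member
-/

set_option autoImplicit false

namespace Fermat.Agent.Two.General

theorem fiveMemberInput : FiveMemberInput := fiveMemberInput_of fivePrimeInput

end Fermat.Agent.Two.General
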