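import Fermat.Agent.Two.General.Switch
import Fermat.Agent.Two.Composition
import Fermat.Agent.Two.Final
import Fermat.Agent.S51

/-!
# Semistable curves are modular, from the general family and the five member

A curve with irreducible 3-torsion and `3 ∣ v₂ Δ` is lifted at `3` from a congruent `TwoCurve`; a
curve with irreducible 5-torsion is lifted at `5` from a switched curve; the remaining curves with
irreducible 3-torsion are lifted at `3` from a member with irreducible 5-torsion.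
-/

set_option autoImplicit false

open WeierstrassCurve CuspForm

namespace Fermat.Agent.Two.General

/-- Lifting at `p` from a congruent curve modular of exact conductor level. -/
theorem exact_of_congr {p : ℕ} (hp : p = 3 ∨ p = 5) (W W' : WeierstrassCurve ℤ) (hΔ : W.Δ ≠ 0)
    (hW : W.IsSemistableModel) (hirr : W.ModRepIsIrreducible p)
    (h' : Mlc1IsModularModelOfExactConductorLevel W')
    (hcong : ∀ ℓ : ℕ, ℓ.Prime → W.IsGoodPrimeFor ℓ → W'.IsGoodPrimeFor ℓ → ℓ ≠ p →
      (p : ℤ) ∣ W'.apOfModel ℓ - W.apOfModel ℓ) :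
    Mlc1IsModularModelOfExactConductorLevel W := by
  obtain ⟨N, hN, hsq, hsupp, f, hf, hfW⟩ := h'
  have : NeZero N := ⟨hN.ne'⟩
  have hp' : p.Prime := by rcases hp with rfl | rfl <;> norm_num
  have hsq' : ∀ q : ℕ, q.Prime → ¬ q ^ 2 ∣ N := fun q hq h =>
    hq.not_isUnit (hsq q (by rwa [← sq]))
  refine liftingInput p hp W hΔ hW hirr N
    (isResiduallyModularOfLevel_of_congr (W' := W') hp' hf fun ℓ hℓ hℓN hgood hℓp => ?_)
    (hsq' p hp') fun q hq _ h => hsq' q hq ((pow_dvd_pow q (by norm_num)).trans h)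
  have hgood' : W'.IsGoodPrimeFor ℓ := fun h => hℓN ((hsupp ℓ hℓ).2 h)
  exact ⟨hfW ℓ hℓ hgood' hℓN, hcong ℓ hℓ hgood hgood' hℓp⟩

/-- The case `3 ∣ v₂ Δ` with irreducible 3-torsion. -/
theorem exact_of_three_dvd (hfam : GoodFamilyInput) (W : WeierstrassCurve ℤ) (hΔ : W.Δ ≠ 0)
    (hW : W.IsSemistableModel) (h3 : W.ModRepIsIrreducible 3) (h3v : 3 ∣ padicValInt 2 W.Δ) :
    Mlc1IsModularModelOfExactConductorLevel W := by
  obtain ⟨W', hW', hcong⟩ := hfam W hΔ hW h3v
  obtain ⟨f, hf, hfW⟩ :=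
    Lower.loweringInput W' hW' (congruenceInput_of_psi psiInput W' hW')
  have hsf : ∀ q : ℕ, q.Prime → ¬ q * q ∣ badLevel W' :=
    Nat.squarefree_iff_prime_squarefree.1 (squarefree_badLevel W')
  have hodd : ¬ 2 ∣ badLevel W' := fun h =>
    hW'.two_not_dvd_Δ ((prime_dvd_badLevel_iff hW'.Δ_ne_zero Nat.prime_two).1 h)
  have : NeZero (4 * badLevel W') := ⟨mul_ne_zero (by norm_num) (badLevel_pos W').ne'⟩
  refine liftingInput 3 (Or.inl rfl) W hΔ hW h3 (4 * badLevel W')
    (isResiduallyModularOfLevel_of_congr (W' := W') Nat.prime_three hf fun ℓ hℓ hℓM hgood hℓ3 => ?_) ?_ ?_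
  · have hℓ2 : ℓ ≠ 2 := fun h => hℓM (h ▸ dvd_mul_of_dvd_left (by norm_num) _)
    have hgood' : W'.IsGoodPrimeFor ℓ := fun h =>
      hℓM (dvd_mul_of_dvd_right ((prime_dvd_badLevel_iff hW'.Δ_ne_zero hℓ).2 h) _)
    exact ⟨hfW ℓ hℓ hgood' hℓ2, hcong ℓ hℓ hgood hgood' hℓ3⟩
  · intro h
    exact hsf 3 Nat.prime_three (by
      rw [← sq]
      exact (Nat.Coprime.dvd_mul_left (by norm_num)).1 h)
  · intro q hq _ h
    by_cases hq2 : q = 2
    · subst hq2
      exact hodd (Nat.dvd_of_mul_dvd_mul_left (k := 4) (by norm_num) h)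
    · refine hsf q hq ?_
      have hco : Nat.Coprime (q ^ 3) 4 :=
        Nat.Coprime.pow 3 2 ((Nat.coprime_primes hq Nat.prime_two).2 hq2)
      exact ((dvd_mul_right (q * q) q).trans (dvd_of_eq (by ring))).trans
        (hco.dvd_of_dvd_mul_left h)

/-- The case of irreducible 5-torsion. -/
theorem exact_of_five (hfam : GoodFamilyInput) (W : WeierstrassCurve ℤ) (hΔ : W.Δ ≠ 0)
    (hW : W.IsSemistableModel) (h5 : W.ModRepIsIrreducible 5) :
    Mlc1IsModularModelOfExactConductorLevel W := by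
  obtain ⟨W', hΔ', hW', h3, h3v, hcong⟩ := switchGenInput W hΔ hW
  exact exact_of_congr (Or.inr rfl) W W' hΔ hW h5 (exact_of_three_dvd hfam W' hΔ' hW' h3 h3v) hcong

/-- Every semistable curve with irreducible 3-torsion. -/
theorem exact_of_three (hfam : GoodFamilyInput) (hfive : FiveMemberInput)
    (W : WeierstrassCurve ℤ) (hΔ : W.Δ ≠ 0) (hW : W.IsSemistableModel)
    (h3 : W.ModRepIsIrreducible 3) : Mlc1IsModularModelOfExactConductorLevel W := by
  by_cases h2 : (2 : ℤ) ∣ W.Δ
  · obtain ⟨W', hΔ', hW', h5, hcong⟩ := hfive W hΔ hW h3 h2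
    exact exact_of_congr (Or.inl rfl) W W' hΔ hW h3 (exact_of_five hfam W' hΔ' hW' h5) hcong
  · exact exact_of_three_dvd hfam W hΔ hW h3
      (by rw [padicValInt.eq_zero_of_not_dvd (by exact_mod_cast h2)]; simp)

/-- Every semistable curve is modular of exact conductor level. -/
theorem exact_of_semistable (hfam : GoodFamilyInput) (hfive : FiveMemberInput)
    (W : WeierstrassCurve ℤ) (hΔ : W.Δ ≠ 0) (hW : W.IsSemistableModel) :
    Mlc1IsModularModelOfExactConductorLevel W :=
  (S51.result W hΔ hW).elim (exact_of_three hfam hfive W hΔ hW) (exact_of_five hfam W hΔ hW)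

end Fermat.Agent.Two.General
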