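import Fermat.Agent.Two.General.LatticeSeq
import Fermat.Agent.Two.General.Modular
import Fermat.Agent.Two.Galois.OldPart
import Fermat.Agent.S23
import Fermat.Prelude.Def_CuspForm_IntegralLattice
import Fermat.Prelude.Def_FormalHecke_Eigensystem

/-!
# Weight one type eigensystems realised in the lattice

A curve modular of squarefree level `N` gives, after depletion at the primes of `N`, a form of
level `N * N` with integral coefficients, congruent modulo `3` to the product of the weight one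
Eisenstein series with the eigensystem of character `χ₋₃` having the same values at the primes.
-/

set_option autoImplicit false

noncomputable section

open WeierstrassCurve CuspForm EisensteinWeightOne FormalHecke CongruenceSubgroup
open ModularFormClass

namespace Fermat.Agent.Two.General

open Fermat.Agent.HeckeDuality (SeqEigen eulerWeight)

/-- `qIntegralSet` spans. -/
theorem hasIntegralBasis_two (N : ℕ) [NeZero N] : CuspForm.HasIntegralBasis N := by
  have h : CuspForm.HasIntegralStructure N 2 := S23.result N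
  rw [CuspForm.HasIntegralStructure, CuspForm.intLattice, Submodule.span_span_of_tower] at h
  refine top_le_iff.1 (h ▸ Submodule.span_mono fun f hf n => ?_)
  obtain ⟨m, hm⟩ := hf n
  exact hm ▸ intCast_mem _ m

/-- The product with the Eisenstein series is invisible modulo `3`. -/
theorem coeff_bridgeProduct_cast (a : ℕ → ℤ) (n : ℕ) :
    (((bridgeProduct a).coeff n : ℤ) : ZMod 3) = (a n : ZMod 3) := by
  have h1 : PowerSeries.map (Int.castRingHom (ZMod 3)) (e1Chi3In ℤ) = 1 := by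
    ext m
    rcases eq_or_ne m 0 with rfl | hm
    · simp [e1Chi3In, e1Chi3]
    · simp [e1Chi3In, e1Chi3, hm, show (6 : ZMod 3) = 0 from rfl]
  have h2 : PowerSeries.map (Int.castRingHom (ZMod 3)) (bridgeProduct a) =
      PowerSeries.map (Int.castRingHom (ZMod 3)) (PowerSeries.mk a) := by
    rw [bridgeProduct, map_mul, h1, mul_one]
  simpa using congrArg (PowerSeries.coeff n) h2

theorem cast_chiNegThree (ℓ : ℕ) : ((chiNegThree ℓ : ℤ) : ZMod 3) = (ℓ : ZMod 3) := by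
  rw [← ZMod.natCast_mod ℓ 3, chiNegThree]
  rcases (show ℓ % 3 = 0 ∨ ℓ % 3 = 1 ∨ ℓ % 3 = 2 by omega) with h | h | h <;> rw [h] <;> decide

variable {W : WeierstrassCurve ℤ}

/-- The coefficients prime to the level of the form of the curve. -/
theorem seqEigen_depleted {N : ℕ} [NeZero N] {f : CuspForm (Gamma0 N) 2}
    (hf : f.IsNormalizedEigenform)
    (hfW : ∀ ℓ : ℕ, ℓ.Prime → ¬ ℓ ∣ N → qCoeff f ℓ = (W.apOfModel ℓ : ℂ)) :
    SeqEigen (eulerWeight N)
      (fun ℓ => if ℓ ∣ N then 0 else (W.apOfModel ℓ : ℂ))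
      fun n => if n.Coprime N then qCoeff f n else 0 := by
  intro ℓ hℓ n
  have h := (Newforms.hOp_eq_smul_iff hℓ f _).1 (Newforms.hOp_of_isNormalizedEigenform hf hℓ) n
  by_cases hℓN : ℓ ∣ N
  · have hcop : ¬ (n * ℓ).Coprime N := fun h' =>
      hℓ.coprime_iff_not_dvd.1 h'.coprime_mul_left hℓN
    simp [hcop, hℓN, eulerWeight]
  · have hco : ℓ.Coprime N := hℓ.coprime_iff_not_dvd.2 hℓN
    have hiff : (n * ℓ).Coprime N ↔ n.Coprime N :=
      ⟨fun h' => h'.coprime_mul_right, fun h' => Nat.Coprime.mul_left h' hco⟩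
    rw [hfW ℓ hℓ hℓN] at h
    simp only [hiff, if_neg hℓN]
    by_cases hn : n.Coprime N
    · rw [if_pos hn, if_pos hn]
      by_cases hd : ℓ ∣ n
      · rw [if_pos hd] at h ⊢
        rwa [if_pos (hn.coprime_dvd_left (Nat.div_dvd_of_dvd hd))]
      · rwa [if_neg hd] at h ⊢
    · rw [if_neg hn, if_neg hn]
      by_cases hd : ℓ ∣ n
      · have hn' : ¬ (n / ℓ).Coprime N := fun h' => hn (by
          rw [← Nat.div_mul_cancel hd]
          exact Nat.Coprime.mul_left h' hco)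
        simp [hd, hn']
      · simp [hd]

/-- **The eigensystem of a curve modular of exact conductor level.** -/
theorem latticeRealized_of_exact (h : Mlc1IsModularModelOfExactConductorLevel W) :
    ∃ (N : ℕ) (_ : NeZero N) (a : ℕ → ℤ),
      CuspForm.HasIntegralBasis N ∧
      FormalHecke.IsEigensystem
        (fun ℓ => if ℓ ∣ N then 0 else ((chiNegThree ℓ : ℤ) : ℤ)) a ∧
      CuspForm.IsLatticeRealized N a ∧
      (∀ q : ℕ, q.Prime → q ≠ 3 → ¬ q ^ 3 ∣ N) ∧
      ∀ ℓ : ℕ, ℓ.Prime → W.IsGoodPrimeFor ℓ → ¬ ℓ ∣ N → ℓ ≠ 3 →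
        (3 : ℤ) ∣ (a ℓ - W.apOfModel ℓ) := by
  obtain ⟨N, hN, hsq, hsupp, f, hf, hfW⟩ := h
  have : NeZero N := ⟨hN.ne'⟩
  have : NeZero (N * N) := ⟨mul_ne_zero hN.ne' hN.ne'⟩
  have hfW' : ∀ ℓ : ℕ, ℓ.Prime → ¬ ℓ ∣ N → qCoeff f ℓ = (W.apOfModel ℓ : ℂ) :=
    fun ℓ hℓ hℓN => hfW ℓ hℓ (fun hd => hℓN ((hsupp ℓ hℓ).2 hd)) hℓN
  have hdvd : ∀ ℓ : ℕ, ℓ.Prime → (ℓ ∣ N * N ↔ ℓ ∣ N) := fun ℓ hℓ =>
    hℓ.dvd_mul.trans (or_self_iff)
  set t : ℕ → ℤ := fun ℓ => if ℓ ∣ N then 0 else W.apOfModel ℓ with ht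
  set b : ℕ → ℤ := formalSeq (fun ℓ => if ℓ ∣ N then 0 else (ℓ : ℤ)) t with hbdef
  set a : ℕ → ℤ := formalSeq
    (fun ℓ => if ℓ ∣ N * N then 0 else ((chiNegThree ℓ : ℤ) : ℤ)) t with hadef
  have hbC : ∀ n, (b n : ℂ) = if n.Coprime N then qCoeff f n else 0 := by
    refine seqEigen_unique
      (seqEigen_map (Int.castRingHom ℂ) (seqEigen_formalSeq _ t)) (seqEigen_depleted hf hfW')
      (fun ℓ _ => by by_cases hℓN : ℓ ∣ N <;> simp [eulerWeight, hℓN])
      (fun ℓ _ => by by_cases hℓN : ℓ ∣ N <;> simp [ht, hℓN]) ?_ ?_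
    · rw [hbdef, formalSeq_zero, Int.cast_zero]
      split_ifs with hc
      · exact (HeckeDuality.coeff_zero f).symm
      · rfl
    · rw [hbdef, formalSeq_one, Int.cast_one, if_pos (Nat.coprime_one_left N), hf.qCoeff_one]
  have hab : ∀ n, (b n : ZMod 3) = (a n : ZMod 3) :=
    seqEigen_unique (seqEigen_map (Int.castRingHom (ZMod 3)) (seqEigen_formalSeq _ t))
      (seqEigen_map (Int.castRingHom (ZMod 3)) (seqEigen_formalSeq _ t))
      (fun ℓ hℓ => by
        simp only [hdvd ℓ hℓ]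
        by_cases hℓN : ℓ ∣ N
        · simp [hℓN]
        · simp [hℓN, cast_chiNegThree]) (fun ℓ _ => rfl)
      (by rw [hbdef, hadef, formalSeq_zero, formalSeq_zero])
      (by rw [hbdef, hadef, formalSeq_one, formalSeq_one])
  obtain ⟨F', hF', hFa⟩ := Galois.exists_depleted (dvd_refl N) f
  let F : CuspForm (Gamma0 (N * N)) 2 :=
    Newforms.mkCusp F' (fun γ hγ => hF'.slash_eq_of_trivial hγ) hF'.cusp
  have hF : ∀ n, (b n : ℂ) = qCoeff F n := fun n => by
    show _ = qCoeff F' n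
    rw [hF'.qCoeff_eq (one_dvd _) hFa, hbC]
  refine ⟨N * N, inferInstance, a, hasIntegralBasis_two _, isEigensystem_formalSeq _ t,
    ⟨F, fun n => hF n ▸ intCast_mem _ (b n), b, hF, fun n => ?_⟩, ?_, ?_⟩
  · refine (ZMod.intCast_eq_intCast_iff_dvd_sub _ _ 3).1 ?_
    rw [coeff_bridgeProduct_cast, hab]
  · intro q hq _ h3
    have hnsq : ¬ q ^ 2 ∣ N := fun hd => hq.not_isUnit (hsq q (by rwa [← sq]))
    rcases (hq.dvd_mul.1 ((dvd_pow_self q three_ne_zero).trans h3)) with hd | hd <;>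
    · obtain ⟨m, rfl⟩ := hd
      have hm : ¬ q ∣ m := fun hd' => hnsq (by rw [sq]; exact mul_dvd_mul_left q hd')
      have h' : q ^ 3 ∣ q ^ 2 * (m * m) := by
        rwa [show q * m * (q * m) = q ^ 2 * (m * m) by ring] at h3
      rw [pow_succ, Nat.mul_dvd_mul_iff_left (pow_pos hq.pos 2)] at h'
      exact (hq.dvd_mul.1 h').elim hm hm
  · intro ℓ hℓ _ hℓN _
    rw [hadef, formalSeq_prime _ t hℓ, ht]
    simp [(hdvd ℓ hℓ).not.1 hℓN]

/-- The statement of milestone 46, from the two inputs. -/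
theorem latticeRealized_three (hfam : GoodFamilyInput) (hfive : FiveMemberInput)
    (W : WeierstrassCurve ℤ) (hΔ : W.Δ ≠ 0) (hW : W.IsSemistableModel)
    (h3 : W.ModRepIsIrreducible 3) :
    ∃ (N : ℕ) (_ : NeZero N) (a : ℕ → ℤ),
      CuspForm.HasIntegralBasis N ∧
      FormalHecke.IsEigensystem
        (fun ℓ => if ℓ ∣ N then 0 else ((chiNegThree ℓ : ℤ) : ℤ)) a ∧
      CuspForm.IsLatticeRealized N a ∧
      (∀ q : ℕ, q.Prime → q ≠ 3 → ¬ q ^ 3 ∣ N) ∧
      ∀ ℓ : ℕ, ℓ.Prime → W.IsGoodPrimeFor ℓ → ¬ ℓ ∣ N → ℓ ≠ 3 →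
        (3 : ℤ) ∣ (a ℓ - W.apOfModel ℓ) :=
  latticeRealized_of_exact (exact_of_three hfam hfive W hΔ hW h3)

end Fermat.Agent.Two.General
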