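import Fermat.Agent.Two.General.Modular

/-!
# The statements of milestones 50 and 60, from the two inputs
-/

set_option autoImplicit false

open WeierstrassCurve CuspForm

namespace Fermat.Agent.Two.General

theorem isModular_of_semistable (hfam : GoodFamilyInput) (hfive : FiveMemberInput)
    (W : WeierstrassCurve ℤ) (hΔ : W.Δ ≠ 0) (hW : W.IsSemistableModel) :
    (W.map (Int.castRingHom ℚ)).IsModular := by
  obtain ⟨N, hN, -, -, hmod⟩ := exact_of_semistable hfam hfive W hΔ hW
  exact ⟨W, ⟨1, one_smul _ _⟩, N, hN, hmod⟩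

/-- Residual modularity at `3` of squarefree level. -/
theorem residuallyModular_three (hfam : GoodFamilyInput) (hfive : FiveMemberInput)
    (W : WeierstrassCurve ℤ) (hΔ : W.Δ ≠ 0) (hW : W.IsSemistableModel)
    (h3 : W.ModRepIsIrreducible 3) :
    ∃ M : ℕ, 0 < M ∧ Squarefree M ∧ W.IsResiduallyModularOfLevel 3 M := by
  obtain ⟨N, hN, hsq, hsupp, f, hf, hfW⟩ := exact_of_three hfam hfive W hΔ hW h3
  exact ⟨N, hN, hsq, isResiduallyModularOfLevel_of_congr (W' := W) Nat.prime_three hf
    fun ℓ hℓ hℓN hgood _ => ⟨hfW ℓ hℓ hgood hℓN, by rw [sub_self]; exact dvd_zero _⟩⟩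

end Fermat.Agent.Two.General
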