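import Fermat.Agent.Two.General.Inputs
import Fermat.Agent.Two.Family.Forms
import Fermat.Prelude.Def_FLTPrelim_Modularity

/-!
# The statement on the auxiliary prime of the member with irreducible 5-torsion
-/

set_option autoImplicit false

noncomputable section

namespace Fermat.Agent.Two.General

open WeierstrassCurve
open scoped WeierstrassCurve.Affine

local notation "Q̄" => AlgebraicClosure ℚ
local notation "GQ" => AlgebraicClosure ℚ ≃ₐ[ℚ] AlgebraicClosure ℚ

/-- Outside any finite set there is a prime `l ≡ 1 [MOD 15]` with a root of `qD` and a Frobenius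
of trace `-2` on the 3-torsion. -/
def FivePrimeInput : Prop :=
  ∀ W : WeierstrassCurve ℤ, W.Δ ≠ 0 → W.IsSemistableModel → W.ModRepIsIrreducible 3 →
    ∀ R : Finset ℕ, ∃ l : ℕ, l.Prime ∧ l ∉ R ∧ l % 15 = 1 ∧
      (∃ x₀ : ℤ, (l : ℤ) ∣ Family.qD W.c₄ W.c₆ x₀ 1) ∧
      ∃ A : ValuationSubring Q̄, A.LiesOverPrime l ∧ ∃ σ : GQ, A.IsFrobeniusAt σ l ∧
        Affine.Point.galoisTrace ℚ (W.map (Int.castRingHom ℚ)) 3 σ = 1

end Fermat.Agent.Two.General

end
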