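import Fermat.Agent.Two.Inputs

/-!
# Inputs for semistable curves in general

`GoodFamilyInput` extends the family input to curves with good reduction at `2` (the exponent is
then zero), and `FiveMemberInput` moves a curve with irreducible 3-torsion to one with irreducible
5-torsion and the same traces modulo `3`.
-/

set_option autoImplicit false

namespace Fermat.Agent.Two.General

open WeierstrassCurve

/-- A `TwoCurve` with the same Hecke eigenvalues modulo `3`, when `3 ∣ v₂ Δ`. -/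
def GoodFamilyInput : Prop :=
  ∀ W : WeierstrassCurve ℤ, W.Δ ≠ 0 → W.IsSemistableModel → 3 ∣ padicValInt 2 W.Δ →
    ∃ W' : WeierstrassCurve ℤ, TwoCurve W' ∧
      ∀ ℓ : ℕ, ℓ.Prime → W.IsGoodPrimeFor ℓ → W'.IsGoodPrimeFor ℓ → ℓ ≠ 3 →
        (3 : ℤ) ∣ W'.apOfModel ℓ - W.apOfModel ℓ

/-- The switch at `5` for an arbitrary semistable curve. -/
def SwitchGenInput : Prop :=
  ∀ W : WeierstrassCurve ℤ, W.Δ ≠ 0 → W.IsSemistableModel →
    ∃ W' : WeierstrassCurve ℤ, W'.Δ ≠ 0 ∧ W'.IsSemistableModel ∧ W'.ModRepIsIrreducible 3 ∧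
      3 ∣ padicValInt 2 W'.Δ ∧
      ∀ ℓ : ℕ, ℓ.Prime → W.IsGoodPrimeFor ℓ → W'.IsGoodPrimeFor ℓ → ℓ ≠ 5 →
        (5 : ℤ) ∣ W'.apOfModel ℓ - W.apOfModel ℓ

/-- A semistable curve with irreducible 5-torsion and the same traces modulo `3`. -/
def FiveMemberInput : Prop :=
  ∀ W : WeierstrassCurve ℤ, W.Δ ≠ 0 → W.IsSemistableModel → W.ModRepIsIrreducible 3 →
    (2 : ℤ) ∣ W.Δ →
    ∃ W' : WeierstrassCurve ℤ, W'.Δ ≠ 0 ∧ W'.IsSemistableModel ∧ W'.ModRepIsIrreducible 5 ∧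
      ∀ ℓ : ℕ, ℓ.Prime → W.IsGoodPrimeFor ℓ → W'.IsGoodPrimeFor ℓ → ℓ ≠ 3 →
        (3 : ℤ) ∣ W'.apOfModel ℓ - W.apOfModel ℓ

end Fermat.Agent.Two.General
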