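import Mathlib
import Fermat.Prelude.Def_FormalHecke_Eigensystem
import Fermat.Agent.HeckeDuality.Sequence

/-!
# Eigensystems with given values at the primes

`formalSeq e t` is the eigensystem with weights `e` and values `t` at the primes; two eigen
sequences with the same weights, eigenvalues and first terms agree.
-/

set_option autoImplicit false

namespace Fermat.Agent.Two.General

open Fermat.Agent.HeckeDuality (SeqEigen)

variable {R : Type*} [CommRing R]

/-- The values at the powers of a prime. -/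
def formalPow (e t : R) : ℕ → R
  | 0 => 1
  | 1 => t
  | r + 2 => t * formalPow e t (r + 1) - e * formalPow e t r

/-- The eigensystem with weights `e` and values `t` at the primes. -/
def formalSeq (e t : ℕ → R) (n : ℕ) : R :=
  if n = 0 then 0 else n.factorization.prod fun p r => formalPow (e p) (t p) r

variable (e t : ℕ → R)

theorem formalSeq_zero : formalSeq e t 0 = 0 := if_pos rfl

theorem formalSeq_one : formalSeq e t 1 = 1 := by simp [formalSeq]

theorem formalSeq_pow_mul {ℓ m : ℕ} (hℓ : ℓ.Prime) (hm : ¬ ℓ ∣ m) (r : ℕ) :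
    formalSeq e t (ℓ ^ r * m) = formalPow (e ℓ) (t ℓ) r * formalSeq e t m := by
  have hm0 : m ≠ 0 := fun h => hm (h ▸ dvd_zero ℓ)
  have hr0 : ℓ ^ r ≠ 0 := pow_ne_zero r hℓ.ne_zero
  have hco : (ℓ ^ r).Coprime m := Nat.Coprime.pow_left r (hℓ.coprime_iff_not_dvd.2 hm)
  rw [formalSeq, formalSeq, if_neg (mul_ne_zero hr0 hm0), if_neg hm0,
    Nat.factorization_mul_of_coprime hco, Finsupp.prod_add_index_of_disjoint
      (by simpa only [Nat.support_factorization] using hco.disjoint_primeFactors),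
    hℓ.factorization_pow, Finsupp.prod_single_index (by rfl)]

theorem formalSeq_prime {ℓ : ℕ} (hℓ : ℓ.Prime) : formalSeq e t ℓ = t ℓ := by
  have h := formalSeq_pow_mul e t hℓ hℓ.not_dvd_one 1
  simpa [formalSeq_one, formalPow] using h

theorem isEigensystem_formalSeq : FormalHecke.IsEigensystem e (formalSeq e t) := by
  refine ⟨formalSeq_one e t, fun ℓ hℓ n => ?_⟩
  rcases Nat.eq_zero_or_pos n with rfl | hn
  · simp [formalSeq_zero]
  obtain ⟨r, m, hm, rfl⟩ := Nat.exists_eq_pow_mul_and_not_dvd hn.ne' ℓ hℓ.ne_one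
  rw [formalSeq_prime e t hℓ, ← mul_assoc, ← pow_succ', formalSeq_pow_mul e t hℓ hm,
    formalSeq_pow_mul e t hℓ hm]
  cases r with
  | zero =>
    rw [pow_zero, one_mul, if_neg hm]
    simp [formalPow]
  | succ r =>
    rw [if_pos (dvd_mul_of_dvd_left (dvd_pow_self ℓ (Nat.succ_ne_zero r)) m),
      show ℓ ^ (r + 1) * m / ℓ = ℓ ^ r * m by
        rw [pow_succ', mul_assoc, Nat.mul_div_cancel_left _ hℓ.pos],
      formalSeq_pow_mul e t hℓ hm, formalPow]
    ring

theorem seqEigen_formalSeq : SeqEigen e t (formalSeq e t) := fun ℓ hℓ n => by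
  have h := (isEigensystem_formalSeq e t).2 ℓ hℓ n
  rwa [formalSeq_prime e t hℓ, mul_comm ℓ, mul_ite, mul_zero] at h

variable {e t}

/-- A ring homomorphism carries eigen sequences to eigen sequences. -/
theorem seqEigen_map {S : Type*} [CommRing S] (φ : R →+* S) {a : ℕ → R} (h : SeqEigen e t a) :
    SeqEigen (fun n => φ (e n)) (fun n => φ (t n)) fun n => φ (a n) := fun ℓ hℓ n => by
  have := congrArg φ (h ℓ hℓ n)
  simpa [apply_ite φ] using this

/-- Eigen sequences are determined by their weights and eigenvalues at the primes. -/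
theorem seqEigen_unique {e' t' a b : ℕ → R} (ha : SeqEigen e t a) (hb : SeqEigen e' t' b)
    (he : ∀ ℓ : ℕ, ℓ.Prime → e ℓ = e' ℓ) (ht : ∀ ℓ : ℕ, ℓ.Prime → t ℓ = t' ℓ)
    (h0 : a 0 = b 0) (h1 : a 1 = b 1) (n : ℕ) : a n = b n := by
  have h : SeqEigen e t fun n => a n - b n := fun ℓ hℓ n => by
    have e1 := ha ℓ hℓ n
    have e2 := hb ℓ hℓ n
    rw [← he ℓ hℓ, ← ht ℓ hℓ] at e2
    by_cases hd : ℓ ∣ n
    · rw [if_pos hd] at e1 e2 ⊢
      linear_combination e1 - e2
    · rw [if_neg hd] at e1 e2 ⊢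
      linear_combination e1 - e2
  exact sub_eq_zero.1 (h.eq_zero (sub_eq_zero.2 h0) (sub_eq_zero.2 h1) n)

end Fermat.Agent.Two.General
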