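import Fermat.Agent.Two.General.Inputs
import Fermat.Agent.Two.Switch.Main

/-!
# The switch at 5 for an arbitrary semistable curve
-/

set_option autoImplicit false

noncomputable section

namespace Fermat.Agent.Two.General

open WeierstrassCurve
open Fermat.Agent.Switch Fermat.Agent.Two.Switch

theorem switchGenInput : SwitchGenInput := by
  intro W hΔ hW
  obtain ⟨W₁, h₁, hs₁, hv₁, ht₁⟩ : ∃ W₁ : WeierstrassCurve ℤ, W₁.Δ ≠ 0 ∧ W₁.IsSemistableModel ∧
      3 ∣ padicValInt 2 W₁.Δ ∧ SameTrace W W₁ := by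
    by_cases h2 : (2 : ℤ) ∣ W.Δ
    · obtain ⟨W₁, h₁, hs₁, -, hv₁, ht₁⟩ := exists_steps W hΔ hW h2 (padicValInt 2 W.Δ % 3)
      exact ⟨W₁, h₁, hs₁, by rw [hv₁]; omega, ht₁⟩
    · exact ⟨W, hΔ, hW, by rw [padicValInt.eq_zero_of_not_dvd (by exact_mod_cast h2)]; simp,
        SameTrace.refl W⟩
  obtain ⟨F⟩ := exists_familyData h₁ hs₁
  obtain ⟨n, hn, hirr⟩ := F.exists_irreducible hs₁ (c₄_ne_zero_of_semistable h₁ hs₁)
  exact ⟨F.curve n, hn, F.isSemistableModel hs₁ n, hirr,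
    by rw [padicValInt_two_curve F h₁ n]; exact hv₁, fun ℓ hℓ hg hg' h5 =>
    (ht₁.trans (sameTrace_curve F hn)).five_dvd_apOfModel_sub hℓ hg hg' h5⟩

end Fermat.Agent.Two.General

end
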